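import Mathlib

/-!
Two-dimensional matrix representations over a Henselian local ring whose residual image spans
the matrix algebra are determined, up to conjugation, by their trace; moreover a conjugate has
all entries given by fixed linear combinations of traces (Carayol).
-/

set_option autoImplicit false

noncomputable section

namespace FLTA.Deformation

open IsLocalRing Matrix

abbrev Mat2 (A : Type) := Matrix (Fin 2) (Fin 2) A

variable {G : Type} [Monoid G] {A : Type} [CommRing A]

/-- The linear extension of a function on `G` to the monoid algebra. -/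
def traceExt (T : G → A) : MonoidAlgebra A G →ₗ[A] A :=
  (Finsupp.linearCombination A T).comp (MonoidAlgebra.coeffLinearEquiv A).toLinearMap

@[simp] lemma traceExt_single (T : G → A) (g : G) (a : A) :
    traceExt T (MonoidAlgebra.single g a) = a * T g := by
  simp [traceExt]

lemma traceExt_of (T : G → A) (g : G) : traceExt T (MonoidAlgebra.of A G g) = T g := by
  simp [MonoidAlgebra.of_apply]

/-- The extension of a matrix representation over `B` to the monoid algebra over `A`. -/
def repExt {B : Type} [CommRing B] (φ : A →+* B) (M : G →* Mat2 B) :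
    MonoidAlgebra A G →+* Mat2 B :=
  letI : Algebra A B := φ.toAlgebra
  (MonoidAlgebra.lift A (Mat2 B) G M).toRingHom

lemma repExt_single {B : Type} [CommRing B] (φ : A →+* B) (M : G →* Mat2 B) (g : G) (a : A) :
    repExt φ M (MonoidAlgebra.single g a) = φ a • M g := by
  let _ : Algebra A B := φ.toAlgebra
  show MonoidAlgebra.lift A (Mat2 B) G M (MonoidAlgebra.single g a) = _
  rw [MonoidAlgebra.lift_single]
  rfl

lemma repExt_of {B : Type} [CommRing B] (φ : A →+* B) (M : G →* Mat2 B) (g : G) :
    repExt φ M (MonoidAlgebra.of A G g) = M g := by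
  rw [MonoidAlgebra.of_apply, repExt_single, map_one, one_smul]

lemma repExt_smul {B : Type} [CommRing B] (φ : A →+* B) (M : G →* Mat2 B) (a : A)
    (y : MonoidAlgebra A G) : repExt φ M (a • y) = φ a • repExt φ M y := by
  let _ : Algebra A B := φ.toAlgebra
  show MonoidAlgebra.lift A (Mat2 B) G M (a • y) = _
  rw [map_smul]
  rfl

lemma map_traceExt {B : Type} [CommRing B] (φ : A →+* B) (M : G →* Mat2 B) (T : G → A)
    (h : ∀ g, φ (T g) = (M g).trace) (y : MonoidAlgebra A G) :
    φ (traceExt T y) = (repExt φ M y).trace := by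
  induction y using MonoidAlgebra.induction_linear with
  | zero => simp
  | add y z hy hz => simp [hy, hz, Matrix.trace_add]
  | single g a => rw [traceExt_single, repExt_single, map_mul, h, Matrix.trace_smul, smul_eq_mul]

lemma trace_mul_self_mul_self (X : Mat2 A) :
    (X * X * X).trace = X.trace * (X * X).trace - X.det * X.trace := by
  simp [Matrix.trace_fin_two, Matrix.det_fin_two, Matrix.mul_apply, Fin.sum_univ_two]
  ring

/-- A matrix of unit trace and zero determinant is idempotent. -/
lemma idempotent_of_trace_det (X : Mat2 A) (ht : X.trace = 1) (hd : X.det = 0) : X * X = X := by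
  simp only [Matrix.trace_fin_two] at ht
  simp only [Matrix.det_fin_two] at hd
  ext i j
  fin_cases i <;> fin_cases j <;> simp [Matrix.mul_apply, Fin.sum_univ_two]
  · linear_combination (X 0 0) * ht - hd
  · linear_combination (X 0 1) * ht
  · linear_combination (X 1 0) * ht
  · linear_combination (X 1 1) * ht - hd

/-- A frame `(E, P, Q)`: rank one idempotent and a pair of off-diagonal elements. -/
structure IsFrame (E P Q : Mat2 A) : Prop where
  tr_E : E.trace = 1
  det_E : E.det = 0
  EP : E * P = P
  PE : P * E = 0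
  QE : Q * E = Q
  EQ : E * Q = 0
  tr_PQ : (P * Q).trace = 1

lemma IsFrame.exists_conj [IsLocalRing A] {E P Q : Mat2 A} (h : IsFrame E P Q) :
    ∃ U : (Mat2 A)ˣ, ∀ X : Mat2 A,
      (↑U⁻¹ : Mat2 A) * X * (U : Mat2 A) =
        !![(E * X).trace, (Q * X).trace; (P * X).trace, X.trace - (E * X).trace] := by
  have hE2 := idempotent_of_trace_det E h.tr_E h.det_E
  have hd : E 0 0 * E 1 1 - E 0 1 * E 1 0 = 0 := by
    simpa [Matrix.det_fin_two] using h.det_E
  have ht : E 0 0 + E 1 1 = 1 := by simpa [Matrix.trace_fin_two] using h.tr_E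
  -- `E` is an outer product `v wᵀ` with `wᵀ v = 1`.
  obtain ⟨v, w, hvw, hwv⟩ : ∃ v w : Fin 2 → A,
      (∀ i j, v i * w j = E i j) ∧ w 0 * v 0 + w 1 * v 1 = 1 := by
    rcases IsLocalRing.isUnit_or_isUnit_of_add_one ht with hu | hu
    · obtain ⟨b, hb⟩ := hu.exists_right_inv
      refine ⟨fun i => E i 0, fun j => b * E 0 j, ?_, ?_⟩
      · intro i j
        fin_cases i <;> fin_cases j <;> simp
        · linear_combination (E 0 0) * hb
        · linear_combination (E 0 1) * hb
        · linear_combination (E 1 0) * hb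
        · linear_combination (E 1 1) * hb - b * hd
      · linear_combination ht + (E 0 0 + E 1 1) * hb - b * hd
    · obtain ⟨b, hb⟩ := hu.exists_right_inv
      refine ⟨fun i => E i 1, fun j => b * E 1 j, ?_, ?_⟩
      · intro i j
        fin_cases i <;> fin_cases j <;> simp
        · linear_combination (E 0 0) * hb - b * hd
        · linear_combination (E 0 1) * hb
        · linear_combination (E 1 0) * hb
        · linear_combination (E 1 1) * hb
      · linear_combination ht + (E 0 0 + E 1 1) * hb - b * hd
  let c : Matrix (Fin 2) (Fin 1) A := Matrix.of fun i _ => v i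
  let r : Matrix (Fin 1) (Fin 2) A := Matrix.of fun _ j => w j
  have hcr : c * r = E := by
    ext i j; simp [c, r, Matrix.mul_apply, hvw]
  have hrc : r * c = 1 := by
    ext i j
    fin_cases i; fin_cases j
    simp [c, r, Matrix.mul_apply, Fin.sum_univ_two, hwv]
  have hrE : r * E = r := by rw [← hcr, ← Matrix.mul_assoc, hrc, Matrix.one_mul]
  have hEc : E * c = c := by rw [← hcr, Matrix.mul_assoc, hrc, Matrix.mul_one]
  -- scalars `r Y c`
  have key : ∀ Y : Mat2 A, (r * Y * c) 0 0 = (E * Y).trace := by
    intro Y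
    rw [← hcr, Matrix.mul_assoc c r Y, Matrix.trace_mul_comm c (r * Y), Matrix.trace_fin_one]
  have hPE : P * c = 0 := by rw [← hEc, ← Matrix.mul_assoc, h.PE, Matrix.zero_mul]
  have hEQ : r * Q = 0 := by rw [← hrE, Matrix.mul_assoc, h.EQ, Matrix.mul_zero]
  let U : Mat2 A := Matrix.of fun i j => if j = 0 then c i 0 else (Q * c) i 0
  let U' : Mat2 A := Matrix.of fun i j => if i = 0 then r 0 j else (r * P) 0 j
  have entries : ∀ X : Mat2 A,
      U' * X * U = !![(E * X).trace, (Q * X).trace; (P * X).trace, (E * (P * X * Q)).trace] := by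
    intro X
    have e00 : (U' * X * U) 0 0 = (r * X * c) 0 0 := by
      simp [U, U', Matrix.mul_apply, Fin.sum_univ_two]
    have e01 : (U' * X * U) 0 1 = (r * (X * Q) * c) 0 0 := by
      simp [U, U', Matrix.mul_apply, Fin.sum_univ_two]; ring
    have e10 : (U' * X * U) 1 0 = (r * (P * X) * c) 0 0 := by
      simp [U, U', Matrix.mul_apply, Fin.sum_univ_two]; ring
    have e11 : (U' * X * U) 1 1 = (r * (P * X * Q) * c) 0 0 := by
      simp [U, U', Matrix.mul_apply, Fin.sum_univ_two]; ring
    rw [Matrix.eta_fin_two (U' * X * U), e00, e01, e10, e11, key, key, key, key]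
    have h01 : (E * (X * Q)).trace = (Q * X).trace := by
      rw [← Matrix.mul_assoc, Matrix.trace_mul_comm, ← Matrix.mul_assoc, h.QE]
    have h10 : (E * (P * X)).trace = (P * X).trace := by rw [← Matrix.mul_assoc, h.EP]
    rw [h01, h10]
  have one : U' * 1 * U = 1 := by
    rw [entries 1, Matrix.mul_one, Matrix.mul_one, Matrix.mul_one, h.tr_E]
    have hQ : Q.trace = 0 := by rw [← h.QE, Matrix.trace_mul_comm, h.EQ, Matrix.trace_zero]
    have hP : P.trace = 0 := by rw [← h.EP, Matrix.trace_mul_comm, h.PE, Matrix.trace_zero]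
    have hPQ : (E * (P * Q)).trace = 1 := by rw [← Matrix.mul_assoc, h.EP, h.tr_PQ]
    rw [hQ, hP, hPQ, Matrix.one_fin_two]
  rw [Matrix.mul_one] at one
  refine ⟨⟨U, U', mul_eq_one_comm.mp one, one⟩, fun X => ?_⟩
  show U' * X * U = _
  have htr : (U' * X * U).trace = X.trace := by
    rw [Matrix.trace_mul_comm, ← Matrix.mul_assoc, mul_eq_one_comm.mp one, Matrix.one_mul]
  rw [entries X, Matrix.trace_fin_two] at htr
  rw [entries X]
  simp at htr
  have h11 : (E * (P * X * Q)).trace = X.trace - (E * X).trace := by
    linear_combination htr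
  rw [h11]

variable (A) in
/-- `T` reduces to the trace of a residual representation spanning the matrix algebra. -/
def HasFullResidue [IsLocalRing A] (T : G → A) : Prop :=
  ∃ Mb : G →* Mat2 (ResidueField A),
    (∀ g, residue A (T g) = (Mb g).trace) ∧ Function.Surjective (repExt (residue A) Mb)

/-- Carayol's normal form: linear combinations of traces `c` such that every representation,
in any extension, with the given trace is conjugate to `c`. -/
theorem exists_normalForm [HenselianLocalRing A] (T : G → A) (hT : HasFullResidue A T) :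
    ∃ c : G → Mat2 A, (∀ g, (c g).trace = T g) ∧
      ∀ (B : Type) [CommRing B] [IsLocalRing B] (φ : A →+* B) (M : G →* Mat2 B),
        (∀ g, φ (T g) = (M g).trace) →
          ∃ U : (Mat2 B)ˣ, ∀ g, (↑U⁻¹ : Mat2 B) * M g * (U : Mat2 B) = (c g).map φ := by
  classical
  obtain ⟨Mb, hMb, hsurj⟩ := hT
  have hres : ∀ y, residue A (traceExt T y) = (repExt (residue A) Mb y).trace :=
    map_traceExt _ Mb T hMb
  obtain ⟨x, hx⟩ := hsurj !![1, 0; 0, 0]
  obtain ⟨p0, hp0⟩ := hsurj !![0, 1; 0, 0]
  obtain ⟨q0, hq0⟩ := hsurj !![0, 0; 1, 0]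
  set t := traceExt T x with ht
  have t1 : residue A t = 1 := by
    rw [ht, hres, hx]; simp [Matrix.trace_fin_two]
  have hunit : ∀ a : A, residue A a = 1 → IsUnit a := by
    intro a ha
    apply (IsLocalRing.residue_ne_zero_iff_isUnit a).mp
    simp [ha]
  obtain ⟨ti, hti⟩ := (hunit t t1).exists_right_inv
  set d := (t * traceExt T (x * x) - traceExt T (x * x * x)) * ti with hd
  have d0 : residue A d = 0 := by
    rw [hd, map_mul, map_sub, map_mul, t1, hres, hres]
    simp [map_mul, hx, Matrix.trace_fin_two]
  let f : Polynomial A := Polynomial.X ^ 2 - Polynomial.C t * Polynomial.X + Polynomial.C d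
  obtain ⟨l, hl, hl1⟩ := HenselianLocalRing.is_henselian f (by simp [f]; monicity!) 1
    (by
      apply (residue_eq_zero_iff _).mp
      simp [f, t1, d0])
    (by
      apply hunit
      simp [f, t1])
  have l1 : residue A l = 1 := by
    have := (residue_eq_zero_iff _).mpr hl1
    rwa [map_sub, map_one, sub_eq_zero] at this
  have hroot : l ^ 2 - t * l + d = 0 := by simpa [f] using hl
  set m := t - l with hm
  have m0 : residue A m = 0 := by rw [hm, map_sub, t1, l1, sub_self]
  obtain ⟨s, hs⟩ := (hunit (l - m) (by rw [map_sub, l1, m0, sub_zero])).exists_right_inv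
  have hs0 : residue A s = 1 := by
    have := congrArg (residue A) hs
    rw [map_mul, map_sub, l1, m0, sub_zero, one_mul, map_one] at this
    exact this
  set e : MonoidAlgebra A G := s • (x - m • 1) with he
  have he0 : repExt (residue A) Mb e = !![1, 0; 0, 0] := by
    rw [he, repExt_smul, hs0, one_smul, map_sub, repExt_smul, m0, zero_smul, sub_zero, hx]
  set p : MonoidAlgebra A G := e * p0 * (1 - e) with hp
  set q' : MonoidAlgebra A G := (1 - e) * q0 * e with hq'
  have u1 : residue A (traceExt T (p * q')) = 1 := by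
    rw [hres, hp, hq']
    simp only [map_mul, map_sub, map_one, he0, hp0, hq0]
    simp [Matrix.trace_fin_two, Matrix.mul_apply, Fin.sum_univ_two, Matrix.one_fin_two]
  obtain ⟨u, hu⟩ := (hunit _ u1).exists_right_inv
  set q : MonoidAlgebra A G := u • q' with hq
  let c : G → Mat2 A := fun g =>
    !![traceExt T (e * .of A G g), traceExt T (q * .of A G g);
      traceExt T (p * .of A G g), T g - traceExt T (e * .of A G g)]
  refine ⟨c, fun g => by simp [c, Matrix.trace_fin_two], ?_⟩
  intro B _ _ φ M hM
  have htr : ∀ y, φ (traceExt T y) = (repExt φ M y).trace := map_traceExt φ M T hM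
  set L := repExt φ M with hL
  have hdet : (L x).det = φ d := by
    have h3 := trace_mul_self_mul_self (L x)
    rw [← map_mul, ← map_mul, ← htr, ← htr, ← htr, ← ht] at h3
    have hti' : φ t * φ ti = 1 := by rw [← map_mul, hti, map_one]
    rw [hd]
    simp only [map_mul, map_sub]
    linear_combination (φ ti) * h3 - (L x).det * hti'
  have hlm : l + m = t := by rw [hm]; ring
  have hLe : L e = φ s • (L x - φ m • 1) := by
    rw [he, hL, repExt_smul, map_sub, repExt_smul, map_one]
  have hX : (L x).trace = φ t := (htr x).symm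
  have hs' : (φ l - φ m) * φ s = 1 := by rw [← map_sub, ← map_mul, hs, map_one]
  have trE : (L e).trace = 1 := by
    rw [hLe, Matrix.trace_smul, Matrix.trace_sub, Matrix.trace_smul, Matrix.trace_one, hX, ← hlm,
      map_add]
    simp only [smul_eq_mul, Fintype.card_fin, Nat.cast_ofNat]
    linear_combination hs'
  have detE : (L e).det = 0 := by
    have h0 : φ l ^ 2 - (φ l + φ m) * φ l + φ d = 0 := by
      rw [← map_add, hlm]
      simpa using congrArg φ hroot
    rw [← hdet] at h0
    rw [← hlm, map_add] at hX
    rw [hLe, Matrix.det_smul]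
    simp [Matrix.det_fin_two, Matrix.trace_fin_two, Matrix.one_apply] at h0 hX ⊢
    linear_combination (φ s) ^ 2 * h0 - (φ s) ^ 2 * φ m * hX
  have hE2 : L e * L e = L e := idempotent_of_trace_det _ trE detE
  have hfr : IsFrame (L e) (L p) (L q) := by
    refine ⟨trE, detE, ?_, ?_, ?_, ?_, ?_⟩
    · simp only [hp, map_mul, map_sub, map_one, ← mul_assoc, hE2]
    · simp only [hp, map_mul, map_sub, map_one, mul_assoc, sub_mul, one_mul, hE2, sub_self,
        mul_zero]
    · simp only [hq, hL, repExt_smul]
      simp only [← hL, hq', map_mul, map_sub, map_one, smul_mul_assoc, mul_assoc, hE2]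
    · simp only [hq, hL, repExt_smul]
      simp only [← hL, hq', map_mul, map_sub, map_one, mul_smul_comm, ← mul_assoc, mul_sub,
        mul_one, hE2, sub_self, zero_mul, smul_zero]
    · rw [← map_mul, ← htr, hq, mul_smul_comm, map_smul, smul_eq_mul, mul_comm, hu, map_one]
  obtain ⟨U, hU⟩ := hfr.exists_conj
  refine ⟨U, fun g => ?_⟩
  rw [hU (M g)]
  have hof : L (.of A G g) = M g := repExt_of φ M g
  ext i j
  fin_cases i <;> fin_cases j <;> simp [c, htr, map_mul, map_sub, hof, hM, Matrix.mul_apply,
    -MonoidAlgebra.of_apply]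

/-- Representations with the same trace are conjugate. -/
theorem conj_of_trace_eq [HenselianLocalRing A] (M M' : G →* Mat2 A)
    (h : ∀ g, (M g).trace = (M' g).trace) (hT : HasFullResidue A fun g => (M g).trace) :
    ∃ U : (Mat2 A)ˣ, ∀ g, (↑U⁻¹ : Mat2 A) * M g * (U : Mat2 A) = M' g := by
  obtain ⟨c, -, hc⟩ := exists_normalForm _ hT
  obtain ⟨U, hU⟩ := hc A (RingHom.id A) M fun g => rfl
  obtain ⟨V, hV⟩ := hc A (RingHom.id A) M' h
  refine ⟨U * V⁻¹, fun g => ?_⟩
  have := (hU g).trans (hV g).symm
  calc (↑(U * V⁻¹)⁻¹ : Mat2 A) * M g * ↑(U * V⁻¹)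
      = (V : Mat2 A) * ((↑U⁻¹ : Mat2 A) * M g * U) * ↑V⁻¹ := by
        simp [mul_assoc]
    _ = M' g := by rw [this]; simp [mul_assoc]

/-- Descent (Carayol): traces lying compatibly in a Henselian local ring `A` with a jointly
injective family of maps to rings carrying representations come from a representation over `A`. -/
theorem exists_rep_of_jointly_injective [HenselianLocalRing A] (T : G → A)
    (hT : HasFullResidue A T) {ι : Type} (B : ι → Type) [∀ i, CommRing (B i)]
    [∀ i, IsLocalRing (B i)] (φ : ∀ i, A →+* B i) (hφ : ∀ a, (∀ i, φ i a = 0) → a = 0)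
    (M : ∀ i, G →* Mat2 (B i)) (hM : ∀ i g, φ i (T g) = (M i g).trace) :
    ∃ N : G →* Mat2 A, (∀ g, (N g).trace = T g) ∧
      ∀ i g, M i g = 1 → (N g).map (φ i) = 1 := by
  obtain ⟨c, hc, hconj⟩ := exists_normalForm T hT
  choose U hU using fun i => hconj (B i) (φ i) (M i) (hM i)
  have inj : ∀ X Y : Mat2 A, (∀ i, X.map (φ i) = Y.map (φ i)) → X = Y := by
    intro X Y h
    ext a b
    refine sub_eq_zero.mp (hφ _ fun i => ?_)
    have := congrFun (congrFun (h i) a) b
    simp only [Matrix.map_apply] at this
    rw [map_sub, this, sub_self]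
  have one : c 1 = 1 := inj _ _ fun i => by
    rw [← hU, map_one, Matrix.map_one (φ i) (map_zero _) (map_one _)]; simp
  have mul : ∀ g h, c (g * h) = c g * c h := fun g h => inj _ _ fun i => by
    rw [Matrix.map_mul, ← hU, ← hU, ← hU, map_mul]
    simp [mul_assoc]
  refine ⟨{ toFun := c, map_one' := one, map_mul' := mul }, hc, fun i g hg => ?_⟩
  show (c g).map (φ i) = 1
  rw [← hU, hg]
  simp

end FLTA.Deformation
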