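import Mathlib
import Fermat.Prelude.Def_GaloisRep_Adic
import Fermat.Agent.Deformation.TraceFrame

/-!
Dictionary between `GaloisRepAdic` and continuous matrix representations, and the criterion
"equivalent iff same trace" when the residual representation is absolutely irreducible.
-/

set_option autoImplicit false

noncomputable section

namespace FLTA.Deformation

open IsLocalRing Matrix

abbrev GalQ : Type := AlgebraicClosure ℚ ≃ₐ[ℚ] AlgebraicClosure ℚ

section equiv

variable {A : Type} [CommRing A] {V W : Type} [AddCommGroup V] [Module A V] [AddCommGroup W]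
  [Module A W]

/-- Conjugate matrices give an equivariant linear equivalence. -/
lemma exists_equivariant_of_conj {ι : Type} [Monoid ι] (f : ι →* Module.End A V)
    (g : ι →* Module.End A W) (b : Module.Basis (Fin 2) A V) (b' : Module.Basis (Fin 2) A W)
    (U : (Mat2 A)ˣ)
    (h : ∀ σ, (↑U⁻¹ : Mat2 A) * LinearMap.toMatrix b b (f σ) * (U : Mat2 A) =
      LinearMap.toMatrix b' b' (g σ)) :
    ∃ e : V ≃ₗ[A] W, ∀ σ x, e (f σ x) = g σ (e x) := by
  let e : V ≃ₗ[A] W := LinearEquiv.ofLinear (Matrix.toLin b b' (↑U⁻¹ : Mat2 A))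
    (Matrix.toLin b' b (U : Mat2 A))
    (by rw [← Matrix.toLin_mul, Units.inv_mul, Matrix.toLin_one])
    (by rw [← Matrix.toLin_mul, Units.mul_inv, Matrix.toLin_one])
  refine ⟨e, fun σ x => ?_⟩
  have hg : g σ = Matrix.toLin b' b' ((↑U⁻¹ : Mat2 A) * LinearMap.toMatrix b b (f σ) * U) := by
    rw [h σ, Matrix.toLin_toMatrix]
  rw [hg, Matrix.toLin_mul b' b b', Matrix.toLin_mul b b b', Matrix.toLin_toMatrix]
  show e (f σ x) = Matrix.toLin b b' (↑U⁻¹ : Mat2 A) (f σ (e.symm (e x)))
  rw [e.symm_apply_apply]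
  rfl

end equiv

section rep

variable {A : Type} [CommRing A] [IsLocalRing A]

/-- A chosen basis of a `GaloisRepAdic`. -/
def repBasis (ρ : GaloisRepAdic A) : Module.Basis (Fin 2) A ρ.V :=
  Module.finBasisOfFinrankEq A ρ.V ρ.finrank_eq

/-- The matrix representation in the chosen basis. -/
def toMat (ρ : GaloisRepAdic A) : GalQ →* Mat2 A :=
  (LinearMap.toMatrixAlgEquiv (repBasis ρ)).toMonoidHom.comp ρ.ρ

lemma toMat_apply (ρ : GaloisRepAdic A) (σ : GalQ) :
    toMat ρ σ = LinearMap.toMatrix (repBasis ρ) (repBasis ρ) (ρ.ρ σ) := rfl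

lemma trace_toMat (ρ : GaloisRepAdic A) (σ : GalQ) : (toMat ρ σ).trace = ρ.trace σ :=
  (LinearMap.trace_eq_matrix_trace A (repBasis ρ) (ρ.ρ σ)).symm

/-- Continuity of a matrix representation. -/
def MatCont (A : Type) [CommRing A] [IsLocalRing A] (M : GalQ →* Mat2 A) : Prop :=
  ∀ n : ℕ, ∃ L : IntermediateField ℚ (AlgebraicClosure ℚ), FiniteDimensional ℚ L ∧
    ∀ σ : GalQ, (∀ x ∈ L, σ x = x) → ∀ i j, M σ i j - (1 : Mat2 A) i j ∈ maximalIdeal A ^ n

lemma mem_smul_top_iff {A : Type} [CommRing A] {V : Type} [AddCommGroup V] [Module A V]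
    {ι : Type} [Fintype ι] (b : Module.Basis ι A V) (I : Ideal A) (v : V) :
    v ∈ I • (⊤ : Submodule A V) ↔ ∀ i, b.repr v i ∈ I := by
  constructor
  · intro hv i
    refine Submodule.smul_induction_on (p := fun v => b.repr v i ∈ I) hv ?_ ?_
    · intro a ha w _; simpa using I.mul_mem_right _ ha
    · intro x y hx hy; simpa using I.add_mem hx hy
  · intro hv
    rw [← b.sum_repr v]
    exact Submodule.sum_mem _ fun i _ => Submodule.smul_mem_smul (hv i) Submodule.mem_top

lemma matCont_toMat (ρ : GaloisRepAdic A) : MatCont A (toMat ρ) := by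
  intro n
  obtain ⟨L, hL, h⟩ := ρ.isAdicContinuous n
  refine ⟨L, hL, fun σ hσ i j => ?_⟩
  have := (mem_smul_top_iff (repBasis ρ) _ _).mp (h σ hσ (repBasis ρ j)) i
  simpa [toMat_apply, LinearMap.toMatrix_apply, Matrix.one_apply, Finsupp.single_apply, eq_comm]
    using this

lemma exists_level_eq_one_of_artinian [IsArtinianRing A] (ρ : GaloisRepAdic A) :
    ∃ L : IntermediateField ℚ (AlgebraicClosure ℚ), FiniteDimensional ℚ L ∧
      ∀ σ : GalQ, (∀ x ∈ L, σ x = x) → toMat ρ σ = 1 := by
  obtain ⟨n, hn⟩ := (isArtinianRing_iff_isNilpotent_maximalIdeal A).mp ‹_›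
  obtain ⟨L, hL, h⟩ := matCont_toMat ρ n
  refine ⟨L, hL, fun σ hσ => ?_⟩
  ext i j
  have := h σ hσ i j
  rw [hn] at this
  simpa [sub_eq_zero] using this

lemma matCont_of_level {M : GalQ →* Mat2 A}
    (h : ∃ L : IntermediateField ℚ (AlgebraicClosure ℚ), FiniteDimensional ℚ L ∧
      ∀ σ : GalQ, (∀ x ∈ L, σ x = x) → M σ = 1) : MatCont A M := by
  obtain ⟨L, hL, h⟩ := h
  exact fun n => ⟨L, hL, fun σ hσ i j => by simp [h σ hσ]⟩

/-- The representation on `Fin 2 → A` attached to a continuous matrix representation. -/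
def ofMat (M : GalQ →* Mat2 A) (hM : MatCont A M) : GaloisRepAdic A where
  V := Fin 2 → A
  finrank_eq := by simp
  ρ := (Matrix.toLinAlgEquiv' (R := A) (n := Fin 2)).toMonoidHom.comp M
  isAdicContinuous := by
    intro n
    obtain ⟨L, hL, h⟩ := hM n
    refine ⟨L, hL, fun σ hσ v => ?_⟩
    rw [mem_smul_top_iff (Pi.basisFun A (Fin 2))]
    intro i
    have e : (Matrix.toLinAlgEquiv' (M σ) v - v) i = ((M σ - 1) *ᵥ v) i := by
      rw [Matrix.sub_mulVec, Matrix.one_mulVec]
      rfl
    simp only [Pi.basisFun_repr]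
    refine e ▸ ?_
    show ∑ j, (M σ i j - (1 : Mat2 A) i j) * v j ∈ _
    exact Ideal.sum_mem _ fun j _ => Ideal.mul_mem_right _ _ (h σ hσ i j)

lemma trace_ofMat (M : GalQ →* Mat2 A) (hM : MatCont A M) (σ : GalQ) :
    (ofMat M hM).trace σ = (M σ).trace := by
  show LinearMap.trace A (Fin 2 → A) (Matrix.toLin' (M σ)) = _
  exact Matrix.trace_toLin'_eq (M σ)

lemma trace_eq_of_isEquiv {ρ ρ' : GaloisRepAdic A} (h : ρ.IsEquiv ρ') (σ : GalQ) :
    ρ.trace σ = ρ'.trace σ := by
  obtain ⟨e⟩ := h
  have : e.toLinearEquiv.conj (ρ.ρ σ) = ρ'.ρ σ := LinearMap.ext fun x => by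
    simp [LinearEquiv.conj_apply_apply, e.map_apply]
  unfold GaloisRepAdic.trace
  rw [← this, LinearMap.trace_conj']

lemma trace_baseChangeAlong {B : Type} [CommRing B] [IsLocalRing B] (φ : A →+* B)
    (hφ : IsLocalHom φ) (ρ : GaloisRepAdic A) (σ : GalQ) :
    (ρ.baseChangeAlong φ hφ).trace σ = φ (ρ.trace σ) := by
  let _ : Algebra A B := φ.toAlgebra
  show LinearMap.trace B _ ((ρ.ρ σ).baseChange B) = _
  rw [LinearMap.trace_baseChange]
  rfl

end rep

section residual

variable (𝒪 : Type) [CommRing 𝒪] [IsLocalRing 𝒪]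

/-- A chosen basis of the residual representation. -/
def barBasis {k : Type} [Field k] (ρ : ResidualGaloisRep k) : Module.Basis (Fin 2) k ρ.V :=
  Module.finBasisOfFinrankEq k ρ.V ρ.finrank_eq

/-- The matrices of a residual representation. -/
def barMat {k : Type} [Field k] (ρ : ResidualGaloisRep k) : GalQ →* Mat2 k :=
  (LinearMap.toMatrixAlgEquiv (barBasis ρ)).toMonoidHom.comp ρ.ρ

/-- An element of `𝒪` lifting the residual trace. -/
def traceLift (ρbar : ResidualGaloisRep (ResidueField 𝒪)) (σ : GalQ) : 𝒪 :=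
  (residue_surjective (barMat ρbar σ).trace).choose

lemma residue_traceLift (ρbar : ResidualGaloisRep (ResidueField 𝒪)) (σ : GalQ) :
    residue 𝒪 (traceLift 𝒪 ρbar σ) = (barMat ρbar σ).trace :=
  (residue_surjective (barMat ρbar σ).trace).choose_spec

variable {𝒪}
variable {A : Type} [CommRing A] [IsLocalRing A] [Algebra 𝒪 A]

/-- The trace function reduces to the trace of `ρbar`. -/
def ResCond (ρbar : ResidualGaloisRep (ResidueField 𝒪)) (T : GalQ → A) : Prop :=
  ∀ σ, T σ - algebraMap 𝒪 A (traceLift 𝒪 ρbar σ) ∈ maximalIdeal A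

lemma surjective_span_of_absIrr {k : Type} [Field k] (ρ : ResidualGaloisRep k)
    (habs : ρ.IsAbsolutelyIrreducible) :
    Function.Surjective (repExt (RingHom.id k) (barMat ρ)) := by
  classical
  let K := AlgebraicClosure k
  let ι : k →+* K := algebraMap k K
  let MK : GalQ →* Mat2 K := ι.mapMatrix.toMonoidHom.comp (barMat ρ)
  let bK : Module.Basis (Fin 2) K (ρ.baseChange K).V := Algebra.TensorProduct.basis K (barBasis ρ)
  -- invariant subspaces of `K²` are trivial
  have irr : ∀ W : Submodule K (Fin 2 → K), (∀ σ, ∀ x ∈ W, MK σ *ᵥ x ∈ W) →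
      W = ⊥ ∨ W = ⊤ := by
    intro W hW
    have key : ∀ σ x, bK.equivFun ((ρ.baseChange K).ρ σ x) = MK σ *ᵥ bK.equivFun x := by
      intro σ x
      have h1 : LinearMap.toMatrix bK bK ((ρ.baseChange K).ρ σ) = MK σ :=
        LinearMap.toMatrix_baseChange (A := K) (ρ.ρ σ) (barBasis ρ) (barBasis ρ)
      rw [← h1]
      exact (LinearMap.toMatrix_mulVec_repr bK bK _ x).symm
    rcases habs (W.comap bK.equivFun.toLinearMap) (fun σ x hx => by
      simp only [Submodule.mem_comap, LinearEquiv.coe_coe] at hx ⊢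
      rw [key]; exact hW σ _ hx) with h | h
    · exact Or.inl (by
        have := congrArg (Submodule.map bK.equivFun.toLinearMap) h
        rwa [Submodule.map_comap_eq_of_surjective bK.equivFun.surjective, Submodule.map_bot] at this)
    · exact Or.inr (by
        have := congrArg (Submodule.map bK.equivFun.toLinearMap) h
        rwa [Submodule.map_comap_eq_of_surjective bK.equivFun.surjective, Submodule.map_top,
          LinearEquiv.range] at this)
  let L := MonoidAlgebra.lift K (Mat2 K) GalQ MK
  let S := L.range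
  have hMK : ∀ σ, MK σ ∈ S := fun σ => ⟨MonoidAlgebra.of K GalQ σ, MonoidAlgebra.lift_of MK σ⟩
  -- all columns
  have cols : ∀ w : Fin 2 → K, w ≠ 0 → ∀ v, ∃ s ∈ S, s *ᵥ w = v := by
    intro w hw v
    let W : Submodule K (Fin 2 → K) :=
      S.toSubmodule.map (((Matrix.mulVecBilin K K : Mat2 K →ₗ[K] _)).flip w)
    have hmem : ∀ x, x ∈ W ↔ ∃ s ∈ S, s *ᵥ w = x := fun x => Submodule.mem_map
    rcases irr W (fun σ x hx => by
      obtain ⟨s, hs, rfl⟩ := (hmem x).mp hx
      exact (hmem _).mpr ⟨MK σ * s, S.mul_mem (hMK σ) hs, (Matrix.mulVec_mulVec w _ _).symm⟩)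
      with h | h
    · exact absurd ((Submodule.eq_bot_iff _).mp h w ((hmem w).mpr ⟨1, S.one_mem, one_mulVec w⟩)) hw
    · exact (hmem v).mp (h ▸ Submodule.mem_top)
  -- rows
  have rows : ∀ η : Fin 2 → K, η ≠ 0 → ∀ v, ∃ s ∈ S, η ᵥ* s = v := by
    intro η hη
    let g : S.toSubmodule →ₗ[K] (Fin 2 → K) :=
      (Matrix.vecMulBilin K K η).comp S.toSubmodule.subtype
    have gsur : LinearMap.range g = ⊤ := by
      by_contra hne
      obtain ⟨F, hF0, hF⟩ := Submodule.exists_dual_map_eq_bot_of_lt_top (lt_top_iff_ne_top.mpr hne)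
        inferInstance
      let x : Fin 2 → K := fun i => F (Pi.single i 1)
      have hFx : ∀ v, F v = v ⬝ᵥ x := by
        intro v
        conv_lhs => rw [pi_eq_sum_univ' v]
        simp [x, dotProduct, smul_eq_mul]
      have hx0 : ∀ s ∈ S, η ⬝ᵥ (s *ᵥ x) = 0 := by
        intro s hs
        rw [Matrix.dotProduct_mulVec, ← hFx]
        have : F (η ᵥ* s) ∈ (LinearMap.range g).map F :=
          Submodule.mem_map_of_mem ⟨⟨s, hs⟩, rfl⟩
        rwa [hF, Submodule.mem_bot] at this
      have hx : x ≠ 0 := by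
        intro hx; apply hF0; ext v; simp [hFx, hx]
      obtain ⟨i, hi⟩ : ∃ i, η i ≠ 0 := Function.ne_iff.mp hη
      obtain ⟨s, hs, e⟩ := cols x hx (Pi.single i 1)
      apply hi
      simpa [e] using hx0 s hs
    intro v
    obtain ⟨s, hs⟩ := (LinearMap.range_eq_top.mp gsur) v
    exact ⟨s.1, s.2, hs⟩
  have stop : S = ⊤ := by
    by_cases hsc : ∀ σ, ∃ a : K, MK σ = a • 1
    · exfalso
      rcases irr (K ∙ (Pi.single 0 1 : Fin 2 → K)) (fun σ x hx => by
        obtain ⟨a, ha⟩ := hsc σ
        rw [ha, Matrix.smul_mulVec, Matrix.one_mulVec]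
        exact Submodule.smul_mem _ a hx) with h | h
      · simp [Submodule.span_singleton_eq_bot] at h
      · have := h.symm ▸ (Submodule.mem_top : (Pi.single 1 1 : Fin 2 → K) ∈ ⊤)
        obtain ⟨a, ha⟩ := Submodule.mem_span_singleton.mp this
        simpa using congrFun ha 1
    · push Not at hsc
      obtain ⟨σ, hσ⟩ := hsc
      -- a singular nonzero element
      obtain ⟨lam, hlam⟩ : ∃ lam : K, (MK σ - lam • 1).det = 0 := by
        obtain ⟨lam, h⟩ := Module.End.exists_eigenvalue (Matrix.toLin' (MK σ))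
        refine ⟨lam, ?_⟩
        obtain ⟨v, hv⟩ := h.exists_hasEigenvector
        refine Matrix.exists_mulVec_eq_zero_iff.mp ⟨v, hv.2, ?_⟩
        rw [Matrix.sub_mulVec, Matrix.smul_mulVec, Matrix.one_mulVec, sub_eq_zero]
        exact hv.apply_eq_smul
      let N := MK σ - lam • 1
      have hN : N ∈ S := S.sub_mem (hMK σ) (S.smul_mem S.one_mem lam)
      have hN0 : N ≠ 0 := sub_ne_zero.mpr (hσ lam)
      have rank1 : ∀ i j k l, N i j * N k l = N i l * N k j := by
        have hd : N 0 0 * N 1 1 - N 0 1 * N 1 0 = 0 := by simpa [N, Matrix.det_fin_two] using hlam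
        intro i j k l
        fin_cases i <;> fin_cases j <;> fin_cases k <;> fin_cases l <;> simp <;>
          first | ring1 | linear_combination hd | linear_combination (-1 : K) * hd
      obtain ⟨i, j, hij⟩ : ∃ i j, N i j ≠ 0 := by
        by_contra h; push Not at h; exact hN0 (Matrix.ext h)
      let w : Fin 2 → K := fun a => N a j
      let η : Fin 2 → K := fun b => N i b / N i j
      have hNout : N = Matrix.vecMulVec w η := by
        ext a b
        simp only [w, η, Matrix.vecMulVec_apply]
        rw [← mul_div_assoc, eq_div_iff hij]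
        linear_combination rank1 a b i j
      have hw : w ≠ 0 := Function.ne_iff.mpr ⟨i, hij⟩
      have hη : η ≠ 0 := Function.ne_iff.mpr ⟨j, by simp [η, hij]⟩
      refine top_unique fun X _ => ?_
      rw [Matrix.matrix_eq_sum_single X]
      refine S.sum_mem fun a _ => S.sum_mem fun b _ => ?_
      obtain ⟨s, hs, es⟩ := cols w hw (Pi.single a (X a b))
      obtain ⟨s', hs', es'⟩ := rows η hη (Pi.single b 1)
      have : Matrix.single a b (X a b) = s * N * s' := by
        rw [hNout, Matrix.mul_vecMulVec, es, Matrix.vecMulVec_mul, es']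
        ext p q
        simp [Matrix.vecMulVec_apply, Matrix.single_apply, Pi.single_apply, eq_comm]
        grind
      rw [this]
      exact S.mul_mem (S.mul_mem hs hN) hs'
  -- descent to `k`
  let L0 := MonoidAlgebra.lift k (Mat2 k) GalQ (barMat ρ)
  have hL0 : (repExt (RingHom.id k) (barMat ρ) : _ → _) = L0 := by
    funext y
    induction y using MonoidAlgebra.induction_linear with
    | zero => simp
    | add y z hy hz => simp [hy, hz]
    | single g a => rw [repExt_single]; simp [L0, MonoidAlgebra.lift_single]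
  rw [hL0]
  by_contra hns
  have hlt : L0.range.toSubmodule < ⊤ := lt_top_iff_ne_top.mpr fun h => hns fun X => by
    have : X ∈ L0.range.toSubmodule := h ▸ Submodule.mem_top
    exact this
  obtain ⟨F, hF0, hF⟩ := Submodule.exists_dual_map_eq_bot_of_lt_top hlt inferInstance
  let FK : Mat2 K →ₗ[K] K :=
    ∑ a, ∑ b, (ι (F (Matrix.single a b 1))) • Matrix.entryLinearMap K K a b
  have hFK : ∀ X : Mat2 k, FK (X.map ι) = ι (F X) := by
    intro X
    conv_rhs => rw [Matrix.matrix_eq_sum_single X]
    simp only [FK, LinearMap.sum_apply, LinearMap.smul_apply, map_sum, smul_eq_mul]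
    refine Finset.sum_congr rfl fun a _ => Finset.sum_congr rfl fun b _ => ?_
    have : Matrix.single a b (X a b) = X a b • Matrix.single a b (1 : k) := by simp
    rw [this, map_smul]
    simp [mul_comm]
  have zero : FK.comp L.toLinearMap = 0 := by
    apply LinearMap.ext
    intro y
    induction y using MonoidAlgebra.induction_linear with
    | zero => simp
    | add y z hy hz => simp only [map_add, hy, hz]
    | single g a =>
      have h0 : F (barMat ρ g) = 0 := by
        have : F (barMat ρ g) ∈ L0.range.toSubmodule.map F :=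
          Submodule.mem_map_of_mem ⟨MonoidAlgebra.of k GalQ g, MonoidAlgebra.lift_of _ g⟩
        rwa [hF, Submodule.mem_bot] at this
      show FK (L (MonoidAlgebra.single g a)) = 0
      rw [show L (MonoidAlgebra.single g a) = a • MK g from MonoidAlgebra.lift_single .., map_smul]
      show a • FK ((barMat ρ g).map ι) = 0
      rw [hFK, h0, map_zero, smul_zero]
  apply hF0
  apply LinearMap.ext
  intro X
  obtain ⟨y, hy⟩ : X.map ι ∈ S := stop ▸ Algebra.mem_top
  have := LinearMap.congr_fun zero y
  apply ι.injective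
  rw [← hFK, ← hy]
  simpa using this

variable (ρbar : ResidualGaloisRep (ResidueField 𝒪))

lemma resCond_map {B : Type} [CommRing B] [IsLocalRing B] [Algebra 𝒪 B] (φ : A →ₐ[𝒪] B)
    [IsLocalHom (φ : A →+* B)] {T : GalQ → A} (h : ResCond ρbar T) :
    ResCond ρbar fun σ => φ (T σ) := by
  intro σ
  have := map_nonunit (φ : A →+* B) _ (h σ)
  simpa [IsLocalRing.mem_maximalIdeal, map_sub] using this

variable [IsLocalHom (algebraMap 𝒪 A)]

lemma resCond_iff (T : GalQ → A) :
    ResCond ρbar T ↔
      ∀ σ, residue A (T σ) = ResidueField.map (algebraMap 𝒪 A) (barMat ρbar σ).trace := by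
  refine forall_congr' fun σ => ?_
  rw [← residue_eq_zero_iff, map_sub, sub_eq_zero, ← residue_traceLift, ResidueField.map_residue]

lemma hasFullResidue (habs : ρbar.IsAbsolutelyIrreducible)
    (hsurj : Function.Surjective (residue A ∘ algebraMap 𝒪 A)) {T : GalQ → A}
    (h : ResCond ρbar T) : HasFullResidue A T := by
  let ι := ResidueField.map (algebraMap 𝒪 A)
  refine ⟨ι.mapMatrix.toMonoidHom.comp (barMat ρbar), fun σ => ?_, ?_⟩
  · rw [(resCond_iff ρbar T).mp h σ]
    exact AddMonoidHom.map_trace ι (barMat ρbar σ)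
  · intro X
    choose a ha using fun i j => hsurj (X i j)
    obtain ⟨y, hy⟩ := surjective_span_of_absIrr ρbar habs (Matrix.of fun i j => residue 𝒪 (a i j))
    obtain ⟨z, hz⟩ : ∃ z : MonoidAlgebra A GalQ,
        repExt (residue A) (ι.mapMatrix.toMonoidHom.comp (barMat ρbar)) z =
          ι.mapMatrix (repExt (RingHom.id _) (barMat ρbar) y) := by
      clear hy
      induction y using MonoidAlgebra.induction_linear with
      | zero => exact ⟨0, by simp⟩
      | add y y' hy hy' =>
        obtain ⟨z, hz⟩ := hy; obtain ⟨z', hz'⟩ := hy'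
        exact ⟨z + z', by rw [map_add, hz, hz', map_add, map_add]⟩
      | single g c =>
        obtain ⟨c, rfl⟩ := residue_surjective c
        refine ⟨MonoidAlgebra.single g (algebraMap 𝒪 A c), ?_⟩
        rw [repExt_single, repExt_single]
        ext i j
        simp [ι, ResidueField.map_residue]
    refine ⟨z, ?_⟩
    rw [hz, hy]
    ext i j
    simp [ι, ResidueField.map_residue]
    exact ha i j

lemma isEquiv_of_trace_eq [HenselianLocalRing A] (habs : ρbar.IsAbsolutelyIrreducible)
    (hsurj : Function.Surjective (residue A ∘ algebraMap 𝒪 A)) {ρ ρ' : GaloisRepAdic A}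
    (h : ResCond ρbar ρ.trace) (e : ∀ σ, ρ.trace σ = ρ'.trace σ) : ρ.IsEquiv ρ' := by
  have h' : HasFullResidue A fun σ => (toMat ρ σ).trace := by
    simpa only [trace_toMat] using hasFullResidue ρbar habs hsurj h
  obtain ⟨U, hU⟩ := conj_of_trace_eq (toMat ρ) (toMat ρ') (by simpa [trace_toMat] using e) h'
  obtain ⟨f, hf⟩ := exists_equivariant_of_conj ρ.ρ ρ'.ρ (repBasis ρ) (repBasis ρ') U hU
  exact ⟨⟨f, hf⟩⟩

lemma residual_isEquiv_iff (habs : ρbar.IsAbsolutelyIrreducible)
    (hsurj : Function.Surjective (residue A ∘ algebraMap 𝒪 A)) (ρ : GaloisRepAdic A) :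
    ρ.residual.IsEquiv (ρbar.baseChangeAlong (ResidueField.map (algebraMap 𝒪 A))) ↔
      ResCond ρbar ρ.trace := by
  let ι := ResidueField.map (algebraMap 𝒪 A)
  let _ : Algebra (ResidueField 𝒪) (ResidueField A) := ι.toAlgebra
  let b : Module.Basis (Fin 2) (ResidueField A) ρ.residual.V :=
    Algebra.TensorProduct.basis (ResidueField A) (repBasis ρ)
  let b' : Module.Basis (Fin 2) (ResidueField A) (ρbar.baseChangeAlong ι).V :=
    Algebra.TensorProduct.basis (ResidueField A) (barBasis ρbar)
  have hb : ∀ σ, LinearMap.toMatrix b b (ρ.residual.ρ σ) = (toMat ρ σ).map (residue A) :=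
    fun σ => LinearMap.toMatrix_baseChange (A := ResidueField A) (ρ.ρ σ) (repBasis ρ) (repBasis ρ)
  have hb' : ∀ σ, LinearMap.toMatrix b' b' ((ρbar.baseChangeAlong ι).ρ σ) =
      (barMat ρbar σ).map ι :=
    fun σ => LinearMap.toMatrix_baseChange (A := ResidueField A) (ρbar.ρ σ) (barBasis ρbar) (barBasis ρbar)
  have ht : ∀ σ, residue A (ρ.trace σ) = ((toMat ρ σ).map (residue A)).trace := fun σ => by
    rw [← trace_toMat]; exact AddMonoidHom.map_trace (residue A) _
  rw [resCond_iff]
  constructor
  · rintro ⟨e⟩ σ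
    have he : e.toLinearEquiv.conj (ρ.residual.ρ σ) = (ρbar.baseChangeAlong ι).ρ σ :=
      LinearMap.ext fun x => by
        rw [LinearEquiv.conj_apply_apply, e.map_apply, LinearEquiv.apply_symm_apply]
    rw [ht, ← hb, ← LinearMap.trace_eq_matrix_trace, ← LinearMap.trace_conj' _ e.toLinearEquiv, he,
      LinearMap.trace_eq_matrix_trace _ b', hb']
    exact (AddMonoidHom.map_trace ι _).symm
  · intro h
    let M : GalQ →* Mat2 (ResidueField A) :=
      (residue A).mapMatrix.toMonoidHom.comp (toMat ρ)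
    let M' : GalQ →* Mat2 (ResidueField A) := ι.mapMatrix.toMonoidHom.comp (barMat ρbar)
    obtain ⟨Mb, hMb, hs⟩ := hasFullResidue ρbar habs hsurj ((resCond_iff ρbar _).mpr h)
    have e : ∀ σ, (M σ).trace = (M' σ).trace := fun σ => by
      show ((toMat ρ σ).map (residue A)).trace = ((barMat ρbar σ).map ι).trace
      rw [← ht, h σ]
      exact AddMonoidHom.map_trace ι _
    have hK : HasFullResidue (ResidueField A) fun σ => (M σ).trace := by
      refine ⟨(residue (ResidueField A)).mapMatrix.toMonoidHom.comp Mb, fun σ => ?_, ?_⟩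
      · show residue _ ((toMat ρ σ).map (residue A)).trace = _
        rw [← ht, hMb]
        exact AddMonoidHom.map_trace (residue (ResidueField A)) _
      · intro X
        choose x hx using fun i j => residue_surjective (R := ResidueField A) (X i j)
        obtain ⟨y, hy⟩ := hs (Matrix.of x)
        refine ⟨MonoidAlgebra.mapRingHom GalQ (residue A) y, ?_⟩
        have : ∀ y, repExt (residue (ResidueField A))
            ((residue (ResidueField A)).mapMatrix.toMonoidHom.comp Mb)
            (MonoidAlgebra.mapRingHom GalQ (residue A) y) =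
              (residue (ResidueField A)).mapMatrix (repExt (residue A) Mb y) := by
          intro y
          induction y using MonoidAlgebra.induction_linear with
          | zero => simp
          | add y y' hy hy' => simp only [map_add, hy, hy']
          | single g c => ext i j; simp [repExt_single]
        rw [this, hy]
        ext i j
        simp [hx]
    obtain ⟨U, hU⟩ := conj_of_trace_eq M M' e hK
    obtain ⟨f, hf⟩ := exists_equivariant_of_conj ρ.residual.ρ (ρbar.baseChangeAlong ι).ρ b b' U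
      fun σ => by rw [hb, hb']; exact hU σ
    exact ⟨⟨f, hf⟩⟩

end residual

end FLTA.Deformation
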