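import Mathlib

/-!
The power series ring over a complete discrete valuation ring with finite residue field as a
complete Noetherian local ring, and evaluation into complete local algebras.
-/

set_option autoImplicit false

noncomputable section

namespace FLTA.Deformation

open IsLocalRing MvPowerSeries Finsupp

variable {R : Type} [CommRing R] {r : ℕ}

/-- The ideal generated by the variables. -/
abbrev varIdeal (R : Type) [CommRing R] (r : ℕ) : Ideal (MvPowerSeries (Fin r) R) :=
  Ideal.span (Set.range MvPowerSeries.X)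

lemma coeff_eq_zero_of_mem_pow {n : ℕ} {x : MvPowerSeries (Fin r) R} (h : x ∈ varIdeal R r ^ n) :
    ∀ d : Fin r →₀ ℕ, degree d < n → coeff d x = 0 := by
  induction n generalizing x with
  | zero => simp
  | succ n ih =>
    rw [pow_succ] at h
    refine Submodule.mul_induction_on h ?_ ?_
    · intro a ha b hb d hd
      rw [coeff_mul]
      refine Finset.sum_eq_zero fun ij hij => ?_
      rw [Finset.HasAntidiagonal.mem_antidiagonal] at hij
      by_cases h2 : ij.2 = 0
      · have hb0 : constantCoeff b = 0 := by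
          have : varIdeal R r ≤ RingHom.ker (constantCoeff (σ := Fin r) (R := R)) := by
            rw [varIdeal, Ideal.span_le]
            rintro _ ⟨i, rfl⟩
            simp
          exact RingHom.mem_ker.mp (this hb)
        rw [h2, coeff_zero_eq_constantCoeff_apply, hb0, mul_zero]
      · have : degree ij.1 < n := by
          have h3 : 0 < degree ij.2 := by
            rw [pos_iff_ne_zero, Ne, Finsupp.degree_eq_zero_iff]
            exact h2
          rw [← hij, map_add] at hd
          omega
        rw [ih ha _ this, zero_mul]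
    · intro a b ha hb d hd
      rw [map_add, ha d hd, hb d hd, add_zero]

lemma coe_mem_pow {n : ℕ} {p : MvPolynomial (Fin r) R}
    (h : p ∈ MvPolynomial.idealOfVars (Fin r) R ^ n) :
    (p : MvPowerSeries (Fin r) R) ∈ varIdeal R r ^ n := by
  have hmap : (MvPolynomial.idealOfVars (Fin r) R).map MvPolynomial.coeToMvPowerSeries.ringHom =
      varIdeal R r := by
    rw [MvPolynomial.idealOfVars, Ideal.map_span, ← Set.range_comp]
    congr 2
    funext i
    simp
  have := Ideal.mem_map_of_mem MvPolynomial.coeToMvPowerSeries.ringHom h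
  rwa [Ideal.map_pow, hmap] at this

/-- A power series with no terms of degree `< n` lies in the `n`-th power of the variable ideal. -/
lemma sub_trunc_mem_pow (x : MvPowerSeries (Fin r) R) (n : ℕ) :
    x - (truncTotal n x : MvPolynomial (Fin r) R) ∈ varIdeal R r ^ n := by
  have hc : ∀ {m l : ℕ}, m ≤ l →
      ((truncTotal m x : MvPolynomial (Fin r) R) : MvPowerSeries (Fin r) R) ≡
        ((truncTotal l x : MvPolynomial (Fin r) R) : MvPowerSeries (Fin r) R)
        [SMOD (varIdeal R r ^ m • ⊤ : Submodule (MvPowerSeries (Fin r) R) _)] := by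
    intro m l hml
    rw [SModEq.sub_mem, smul_eq_mul, Ideal.mul_top]
    have := coe_mem_pow (truncTotal_sub_truncTotal_mem_pow_idealOfVars (le_refl m) hml x)
    rwa [← MvPolynomial.coeToMvPowerSeries.ringHom_apply, map_sub,
      MvPolynomial.coeToMvPowerSeries.ringHom_apply,
      MvPolynomial.coeToMvPowerSeries.ringHom_apply] at this
  obtain ⟨L, hL⟩ := IsPrecomplete.prec (inferInstance : IsPrecomplete (varIdeal R r) _) hc
  have hL' : ∀ m, L - (truncTotal m x : MvPolynomial (Fin r) R) ∈ varIdeal R r ^ m := by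
    intro m
    have := (hL m).symm
    rwa [SModEq.sub_mem, smul_eq_mul, Ideal.mul_top] at this
  have : L = x := by
    ext d
    have := coeff_eq_zero_of_mem_pow (hL' (degree d + 1)) d (Nat.lt_succ_self _)
    rwa [map_sub, MvPolynomial.coeff_coe, coeff_truncTotal _ (Nat.lt_succ_self _), sub_eq_zero]
      at this
  rw [← this] at hL' ⊢
  exact hL' n

section
variable [IsLocalRing R]

lemma maximalIdeal_eq (r : ℕ) : maximalIdeal (MvPowerSeries (Fin r) R) =
    (maximalIdeal R).map MvPowerSeries.C ⊔ varIdeal R r := by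
  have mem : ∀ x, x ∈ maximalIdeal (MvPowerSeries (Fin r) R) ↔
      constantCoeff x ∈ maximalIdeal R := fun x => by
    rw [mem_maximalIdeal, mem_maximalIdeal, mem_nonunits_iff, mem_nonunits_iff,
      MvPowerSeries.isUnit_iff_constantCoeff]
  refine le_antisymm (fun x hx => ?_) (sup_le ?_ ?_)
  · have h1 := sub_trunc_mem_pow x 1
    rw [pow_one] at h1
    have h2 : ((truncTotal 1 x : MvPolynomial (Fin r) R) : MvPowerSeries (Fin r) R) =
        MvPowerSeries.C (constantCoeff x) := by
      classical
      ext d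
      rw [MvPolynomial.coeff_coe, coeff_truncTotal_eq_ite, MvPowerSeries.coeff_C]
      by_cases hd : d = 0
      · simp [hd]
      · have : ¬ degree d < 1 := by rw [Nat.lt_one_iff, Finsupp.degree_eq_zero_iff]; exact hd
        rw [if_neg this, if_neg hd]
    rw [h2] at h1
    rw [show x = MvPowerSeries.C (constantCoeff x) + (x - MvPowerSeries.C (constantCoeff x)) by ring]
    exact add_mem (Ideal.mem_sup_left (Ideal.mem_map_of_mem _ ((mem x).mp hx)))
      (Ideal.mem_sup_right h1)
  · rw [Ideal.map_le_iff_le_comap]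
    intro a ha
    rw [Ideal.mem_comap, mem, constantCoeff_C]
    exact ha
  · rw [varIdeal, Ideal.span_le]
    rintro _ ⟨i, rfl⟩
    rw [SetLike.mem_coe, mem, constantCoeff_X]
    exact zero_mem _

lemma isPrecomplete_sup {S : Type} [CommRing S] (I J : Ideal S) [IsPrecomplete I S]
    [IsPrecomplete J S] : IsPrecomplete (I ⊔ J) S := by
  refine ⟨fun f hf => ?_⟩
  simp only [SModEq.sub_mem, smul_eq_mul, Ideal.mul_top] at hf ⊢
  have hdec : ∀ n, ∃ a ∈ I ^ n, ∃ b ∈ J ^ n, f (n + 1 + (n + 1)) - f (n + n) = a + b := by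
    intro n
    have h1 : f (n + 1 + (n + 1)) - f (n + n) ∈ (I ⊔ J) ^ (n + n) := by
      rw [← neg_sub]
      exact neg_mem (hf (by omega))
    obtain ⟨a, ha, b, hb, h⟩ := Submodule.mem_sup.mp (Ideal.sup_pow_add_le_pow_sup_pow h1)
    exact ⟨a, ha, b, hb, h.symm⟩
  choose a ha b hb hab using hdec
  have lim : ∀ (K : Ideal S) [IsPrecomplete K S] (c : ℕ → S), (∀ n, c n ∈ K ^ n) →
      ∃ L, ∀ n, L - ∑ i ∈ Finset.range n, c i ∈ K ^ n := by
    intro K _ c hc
    have cauchy : ∀ {m n : ℕ}, m ≤ n → ∑ i ∈ Finset.range m, c i ≡ ∑ i ∈ Finset.range n, c i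
        [SMOD (K ^ m • ⊤ : Submodule S S)] := by
      intro m n hmn
      rw [SModEq.sub_mem, smul_eq_mul, Ideal.mul_top, ← neg_sub, ← Finset.sum_Ico_eq_sub c hmn]
      refine neg_mem (Ideal.sum_mem _ fun i hi => ?_)
      exact Ideal.pow_le_pow_right (Finset.mem_Ico.mp hi).1 (hc i)
    obtain ⟨L, hL⟩ := IsPrecomplete.prec (inferInstance : IsPrecomplete K S) cauchy
    refine ⟨L, fun n => ?_⟩
    have := (hL n).symm
    rwa [SModEq.sub_mem, smul_eq_mul, Ideal.mul_top] at this
  obtain ⟨A, hA⟩ := lim I a ha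
  obtain ⟨B, hB⟩ := lim J b hb
  refine ⟨f 0 + A + B, fun n => ?_⟩
  have key : f (n + n) = f 0 + ∑ i ∈ Finset.range n, a i + ∑ i ∈ Finset.range n, b i := by
    have := Finset.sum_range_sub (fun m => f (m + m)) n
    simp only [hab, Finset.sum_add_distrib] at this
    linear_combination -this
  have h2 : f (n + n) - (f 0 + A + B) ∈ (I ⊔ J) ^ n := by
    rw [key, show f 0 + ∑ i ∈ Finset.range n, a i + ∑ i ∈ Finset.range n, b i - (f 0 + A + B) =
      -((A - ∑ i ∈ Finset.range n, a i) + (B - ∑ i ∈ Finset.range n, b i)) by ring]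
    exact neg_mem (add_mem (Ideal.pow_right_mono le_sup_left n (hA n))
      (Ideal.pow_right_mono le_sup_right n (hB n)))
  have h3 := hf (show n ≤ n + n by omega)
  have := add_mem h3 h2
  rwa [sub_add_sub_cancel] at this

end

variable (R) [IsDomain R] [IsDiscreteValuationRing R] [IsAdicComplete (maximalIdeal R) R]

lemma isPrecomplete_map_C (r : ℕ) :
    IsPrecomplete ((maximalIdeal R).map (MvPowerSeries.C (σ := Fin r))) (MvPowerSeries (Fin r) R) := by
  obtain ⟨p, hp⟩ := IsPrincipalIdealRing.principal (maximalIdeal R)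
  rw [Ideal.submodule_span_eq] at hp
  have mem : ∀ (n : ℕ) (x : MvPowerSeries (Fin r) R),
      x ∈ ((maximalIdeal R).map MvPowerSeries.C) ^ n ↔ ∀ d, coeff d x ∈ maximalIdeal R ^ n := by
    intro n x
    simp only [hp, Ideal.map_span, Set.image_singleton, Ideal.span_singleton_pow, ← map_pow,
      Ideal.mem_span_singleton']
    constructor
    · rintro ⟨y, rfl⟩ d
      exact ⟨coeff d y, by rw [coeff_mul_C]⟩
    · intro h
      choose y hy using h
      refine ⟨(fun d => y d : MvPowerSeries (Fin r) R), ?_⟩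
      ext d
      rw [coeff_mul_C]
      exact hy d
  refine ⟨fun f hf => ?_⟩
  simp only [SModEq.sub_mem, smul_eq_mul, Ideal.mul_top] at hf ⊢
  have hc : ∀ d {m n : ℕ}, m ≤ n →
      coeff d (f m) ≡ coeff d (f n) [SMOD (maximalIdeal R ^ m • ⊤ : Submodule R R)] := by
    intro d m n hmn
    rw [SModEq.sub_mem, smul_eq_mul, Ideal.mul_top, ← map_sub]
    exact (mem m _).mp (hf hmn) d
  choose L hL using fun d =>
    IsPrecomplete.prec (inferInstance : IsPrecomplete (maximalIdeal R) R) (hc d)
  refine ⟨(fun d => L d : MvPowerSeries (Fin r) R), fun n => (mem n _).mpr fun d => ?_⟩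
  have := hL d n
  rw [SModEq.sub_mem, smul_eq_mul, Ideal.mul_top] at this
  rw [map_sub]
  exact this

lemma isAdicComplete_powerSeries (r : ℕ) :
    IsAdicComplete (maximalIdeal (MvPowerSeries (Fin r) R)) (MvPowerSeries (Fin r) R) := by
  have := isPrecomplete_map_C R r
  have : IsPrecomplete (maximalIdeal (MvPowerSeries (Fin r) R)) (MvPowerSeries (Fin r) R) := by
    rw [maximalIdeal_eq]
    exact isPrecomplete_sup _ _
  exact ⟨⟩

omit [IsAdicComplete (maximalIdeal R) R] in
lemma finite_quotient [Finite (ResidueField R)] {r : ℕ} (n : ℕ) :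
    Finite (MvPowerSeries (Fin r) R ⧸ maximalIdeal (MvPowerSeries (Fin r) R) ^ n) := by
  have hs : Function.Surjective
      (residue (MvPowerSeries (Fin r) R) ∘ MvPowerSeries.C (σ := Fin r) (R := R)) := by
    intro y
    obtain ⟨x, rfl⟩ := residue_surjective y
    refine ⟨constantCoeff x, ?_⟩
    rw [Function.comp_apply]
    refine Ideal.Quotient.eq.mpr ?_
    rw [mem_maximalIdeal, mem_nonunits_iff, MvPowerSeries.isUnit_iff_constantCoeff]
    simp
  have : Finite (MvPowerSeries (Fin r) R ⧸ maximalIdeal (MvPowerSeries (Fin r) R)) := by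
    have : IsLocalHom (MvPowerSeries.C (σ := Fin r) (R := R)) :=
      ⟨fun a ha => by simpa using MvPowerSeries.isUnit_iff_constantCoeff.mp ha⟩
    refine Finite.of_surjective
      (ResidueField.map (MvPowerSeries.C (σ := Fin r) (R := R))) fun y => ?_
    obtain ⟨a, ha⟩ := hs y
    exact ⟨residue R a, by rw [ResidueField.map_residue]; exact ha⟩
  exact Ideal.finite_quotient_pow (IsNoetherian.noetherian _) n

end FLTA.Deformation
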