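import Mathlib
import Fermat.Prelude.Def_GaloisRep_DeformationCondition
import Fermat.Agent.Deformation.AdicMatrix

/-!
Deformations of a given type recorded by their trace functions: functoriality, descent along
injections and stability under fibre products over the residue field.
-/

set_option autoImplicit false

noncomputable section

namespace FLTA.Deformation

open IsLocalRing Matrix GaloisRep

variable {𝒪 : Type} [CommRing 𝒪] [IsLocalRing 𝒪]

lemma henselianLocalRing_of_complete (A : Type) [CommRing A] [IsLocalRing A]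
    [IsAdicComplete (maximalIdeal A) A] : HenselianLocalRing A where
  is_henselian f hf a₀ h₁ h₂ :=
    HenselianRing.is_henselian (I := maximalIdeal A) f hf a₀ h₁ (h₂.map _)

lemma henselianLocalRing_of_artinian (A : Type) [CommRing A] [IsLocalRing A] [IsArtinianRing A] :
    HenselianLocalRing A := henselianLocalRing_of_complete A

/-- A ring homomorphism out of a local Artinian ring into a local ring is local. -/
lemma isLocalHom_of_artinian {A B : Type} [CommRing A] [IsLocalRing A] [IsArtinianRing A]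
    [CommRing B] [IsLocalRing B] (φ : A →+* B) : IsLocalHom φ := by
  refine ⟨fun a ha => ?_⟩
  by_contra h
  obtain ⟨n, hn⟩ := (isArtinianRing_iff_isNilpotent_maximalIdeal A).mp ‹_›
  have : a ^ n = 0 := by simpa [hn] using Ideal.pow_mem_pow (show a ∈ maximalIdeal A from h) n
  have h0 : IsUnit ((φ a) ^ n) := ha.pow n
  rw [← map_pow, this, map_zero] at h0
  exact not_isUnit_zero h0

lemma finite_of_test [Finite (ResidueField 𝒪)] {A : Type} [CommRing A] [IsLocalRing A]
    [Algebra 𝒪 A] (hA : IsArtinianTestAlgebra 𝒪 A) : Finite A := by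
  haveI := hA.isArtinian
  haveI := hA.isLocalHom
  haveI : Finite (A ⧸ maximalIdeal A) := by
    refine Finite.of_surjective (ResidueField.map (algebraMap 𝒪 A)) fun y => ?_
    obtain ⟨a, ha⟩ := hA.residue_surjective y
    exact ⟨residue 𝒪 a, by rw [ResidueField.map_residue]; exact ha⟩
  obtain ⟨n, hn⟩ := (isArtinianRing_iff_isNilpotent_maximalIdeal A).mp ‹_›
  have := Ideal.finite_quotient_pow (IsNoetherian.noetherian (maximalIdeal A)) n
  rw [hn] at this
  exact Finite.of_equiv _ (RingEquiv.quotientBot A).toEquiv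

/-- The residue map of a test algebra, valued in the residue field of `𝒪`. -/
def resK {A : Type} [CommRing A] [IsLocalRing A] [Algebra 𝒪 A]
    (hA : IsArtinianTestAlgebra 𝒪 A) : A →ₐ[𝒪] ResidueField 𝒪 :=
  haveI := hA.isLocalHom
  let e : ResidueField 𝒪 ≃+* ResidueField A :=
    RingEquiv.ofBijective (ResidueField.map (algebraMap 𝒪 A))
      ⟨RingHom.injective _, fun y => by
        obtain ⟨a, ha⟩ := hA.residue_surjective y
        exact ⟨residue 𝒪 a, by rw [ResidueField.map_residue]; exact ha⟩⟩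
  { e.symm.toRingHom.comp (residue A) with
    commutes' := fun a => by
      show e.symm (residue A (algebraMap 𝒪 A a)) = residue 𝒪 a
      rw [RingEquiv.symm_apply_eq]
      exact (ResidueField.map_residue (algebraMap 𝒪 A) a).symm }

lemma resK_eq_zero_iff {A : Type} [CommRing A] [IsLocalRing A] [Algebra 𝒪 A]
    (hA : IsArtinianTestAlgebra 𝒪 A) (a : A) : resK hA a = 0 ↔ a ∈ maximalIdeal A := by
  rw [← residue_eq_zero_iff]
  simp [resK]

lemma test_residueField : IsArtinianTestAlgebra 𝒪 (ResidueField 𝒪) where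
  isLocalHom := inferInstanceAs (IsLocalHom (residue 𝒪))
  residue_surjective := fun y => by
    obtain ⟨z, rfl⟩ := residue_surjective y
    obtain ⟨a, rfl⟩ := residue_surjective z
    exact ⟨a, rfl⟩
  isArtinian := inferInstance

variable (ρbar : ResidualGaloisRep (ResidueField 𝒪))
  (𝒟 : ∀ ⦃A : Type⦄ [CommRing A] [IsLocalRing A] [Algebra 𝒪 A], GaloisRepAdic A → Prop)

/-- `T` is the trace of a deformation of `ρbar` of type `𝒟`. -/
def IsDef (A : Type) [CommRing A] [IsLocalRing A] [Algebra 𝒪 A] (T : GalQ → A) : Prop :=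
  ResCond ρbar T ∧ ∃ ρ : GaloisRepAdic A, (∀ σ, ρ.trace σ = T σ) ∧ 𝒟 ρ

variable {ρbar 𝒟}
variable (habs : ρbar.IsAbsolutelyIrreducible) (h𝒟 : IsDeformationCondition 𝒪 𝒟)

section test

variable {A B : Type} [CommRing A] [IsLocalRing A] [Algebra 𝒪 A] [CommRing B] [IsLocalRing B]
  [Algebra 𝒪 B] (hA : IsArtinianTestAlgebra 𝒪 A) (hB : IsArtinianTestAlgebra 𝒪 B)

include habs h𝒟 hA in
lemma IsDef.mem_of_trace {T : GalQ → A} (h : IsDef ρbar 𝒟 A T) (ρ : GaloisRepAdic A)
    (hρ : ∀ σ, ρ.trace σ = T σ) : 𝒟 ρ := by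
  obtain ⟨hres, ρ₀, hρ₀, hD⟩ := h
  haveI := hA.isArtinian
  haveI := hA.isLocalHom
  haveI := henselianLocalRing_of_artinian A
  refine h𝒟.of_isEquiv hA (isEquiv_of_trace_eq ρbar habs hA.residue_surjective ?_ fun σ => ?_) hD
  · rwa [show ρ₀.trace = T from funext hρ₀]
  · rw [hρ₀, hρ]

include h𝒟 hA hB in
lemma IsDef.map {T : GalQ → A} (h : IsDef ρbar 𝒟 A T) (φ : A →ₐ[𝒪] B) :
    IsDef ρbar 𝒟 B fun σ => φ (T σ) := by
  obtain ⟨hres, ρ₀, hρ₀, hD⟩ := h
  haveI := hA.isArtinian
  haveI hφ : IsLocalHom (φ : A →+* B) := isLocalHom_of_artinian _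
  exact ⟨resCond_map ρbar φ hres, _, fun σ => by rw [trace_baseChangeAlong, hρ₀]; rfl,
    h𝒟.baseChangeAlong hA hB φ hφ hD⟩

include habs in
/-- A trace function whose images under a jointly injective pair are deformations comes from a
representation. -/
lemma exists_rep_pair {P : Type} [CommRing P] [IsLocalRing P] [Algebra 𝒪 P]
    (hP : IsArtinianTestAlgebra 𝒪 P) [IsArtinianRing A] [IsArtinianRing B]
    (pA : P →ₐ[𝒪] A) (pB : P →ₐ[𝒪] B) (hinj : ∀ x, pA x = 0 → pB x = 0 → x = 0)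
    {T : GalQ → P} (hT : ResCond ρbar T) (ρA : GaloisRepAdic A) (ρB : GaloisRepAdic B)
    (hρA : ∀ σ, ρA.trace σ = pA (T σ)) (hρB : ∀ σ, ρB.trace σ = pB (T σ)) :
    ∃ ρ : GaloisRepAdic P, ∀ σ, ρ.trace σ = T σ := by
  haveI := hP.isArtinian
  haveI := hP.isLocalHom
  haveI := henselianLocalRing_of_artinian P
  obtain ⟨c, hc, hconj⟩ := exists_normalForm T (hasFullResidue ρbar habs hP.residue_surjective hT)
  obtain ⟨U, hU⟩ := hconj A (pA : P →+* A) (toMat ρA) fun σ => by
    rw [trace_toMat, hρA]; rfl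
  obtain ⟨V, hV⟩ := hconj B (pB : P →+* B) (toMat ρB) fun σ => by
    rw [trace_toMat, hρB]; rfl
  have inj : ∀ X Y : Mat2 P, X.map (pA : P →+* A) = Y.map (pA : P →+* A) →
      X.map (pB : P →+* B) = Y.map (pB : P →+* B) → X = Y := by
    intro X Y h1 h2
    ext a b
    refine sub_eq_zero.mp (hinj _ ?_ ?_)
    · have := congrFun (congrFun h1 a) b
      simp only [Matrix.map_apply, RingHom.coe_coe] at this
      rw [map_sub, this, sub_self]
    · have := congrFun (congrFun h2 a) b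
      simp only [Matrix.map_apply, RingHom.coe_coe] at this
      rw [map_sub, this, sub_self]
  have one : c 1 = 1 := inj _ _
    (by rw [← hU, map_one, Matrix.map_one _ (map_zero _) (map_one _)]; simp)
    (by rw [← hV, map_one, Matrix.map_one _ (map_zero _) (map_one _)]; simp)
  have mul : ∀ g h, c (g * h) = c g * c h := fun g h => inj _ _
    (by rw [Matrix.map_mul, ← hU, ← hU, ← hU, map_mul]; simp [mul_assoc])
    (by rw [Matrix.map_mul, ← hV, ← hV, ← hV, map_mul]; simp [mul_assoc])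
  obtain ⟨LA, hLA, hA1⟩ := exists_level_eq_one_of_artinian ρA
  obtain ⟨LB, hLB, hB1⟩ := exists_level_eq_one_of_artinian ρB
  let N : GalQ →* Mat2 P := { toFun := c, map_one' := one, map_mul' := mul }
  have hN : MatCont P N := by
    refine matCont_of_level ⟨LA ⊔ LB, IntermediateField.finiteDimensional_sup LA LB,
      fun σ hσ => inj _ _ ?_ ?_⟩
    · show (c σ).map (pA : P →+* A) = _
      rw [← hU, hA1 σ fun x hx => hσ x ((le_sup_left : LA ≤ LA ⊔ LB) hx),
        Matrix.map_one _ (map_zero _) (map_one _)]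
      simp
    · show (c σ).map (pB : P →+* B) = _
      rw [← hV, hB1 σ fun x hx => hσ x ((le_sup_right : LB ≤ LA ⊔ LB) hx),
        Matrix.map_one _ (map_zero _) (map_one _)]
      simp
  exact ⟨ofMat N hN, fun σ => by rw [trace_ofMat]; exact hc σ⟩

include habs h𝒟 hA hB in
lemma IsDef.descend (φ : A →ₐ[𝒪] B) (hφ : Function.Injective φ) {T : GalQ → A}
    (hT : ResCond ρbar T) (h : IsDef ρbar 𝒟 B fun σ => φ (T σ)) : IsDef ρbar 𝒟 A T := by
  haveI := hA.isArtinian
  haveI := hB.isArtinian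
  have hl : IsLocalHom (φ : A →+* B) := isLocalHom_of_artinian _
  obtain ⟨-, ρB, hρB, hD⟩ := id h
  obtain ⟨ρ, hρ⟩ := exists_rep_pair habs hA φ φ (fun x hx _ => hφ (by rw [hx, map_zero])) hT ρB ρB
    hρB hρB
  refine ⟨hT, ρ, hρ, h𝒟.of_baseChangeAlong_injective hA hB φ hl hφ ?_⟩
  exact h.mem_of_trace habs h𝒟 hB _ fun σ => by rw [trace_baseChangeAlong, hρ]; rfl

end test

section fibre

variable {A B : Type} [CommRing A] [IsLocalRing A] [Algebra 𝒪 A] [CommRing B] [IsLocalRing B]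
  [Algebra 𝒪 B] (hA : IsArtinianTestAlgebra 𝒪 A) (hB : IsArtinianTestAlgebra 𝒪 B)

/-- The fibre product of two test algebras over the residue field. -/
abbrev Fib : Subalgebra 𝒪 (A × B) :=
  AlgHom.equalizer ((resK hA).comp (AlgHom.fst 𝒪 A B)) ((resK hB).comp (AlgHom.snd 𝒪 A B))

lemma mem_fib {x : A × B} : x ∈ Fib hA hB ↔ resK hA x.1 = resK hB x.2 := Iff.rfl

lemma isUnit_of_resK_ne (x : Fib hA hB) (hx : resK hA x.1.1 ≠ 0) : IsUnit x := by
  have h1 : IsUnit x.1.1 := by
    by_contra h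
    exact hx ((resK_eq_zero_iff hA _).mpr h)
  have h2 : IsUnit x.1.2 := by
    by_contra h
    exact hx ((mem_fib hA hB).mp x.2 ▸ (resK_eq_zero_iff hB _).mpr h)
  obtain ⟨a, ha⟩ := h1.exists_right_inv
  obtain ⟨b, hb⟩ := h2.exists_right_inv
  refine IsUnit.of_mul_eq_one ⟨(a, b), (mem_fib hA hB).mpr (mul_left_cancel₀ hx ?_)⟩
    (Subtype.ext (Prod.ext ha hb))
  conv_rhs => rw [(mem_fib hA hB).mp x.2, ← map_mul, hb, map_one]
  rw [← map_mul, ha, map_one]

instance instIsLocalRingFib : IsLocalRing (Fib hA hB) := by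
  haveI : Nontrivial (Fib hA hB) := ⟨⟨0, 1, fun h => zero_ne_one
    (congrArg Prod.fst (congrArg Subtype.val h))⟩⟩
  refine IsLocalRing.of_isUnit_or_isUnit_one_sub_self fun x => ?_
  by_cases hx : resK hA x.1.1 = 0
  · refine Or.inr (isUnit_of_resK_ne hA hB _ ?_)
    show resK hA (1 - x.1.1) ≠ 0
    rw [map_sub, map_one, hx, sub_zero]
    exact one_ne_zero
  · exact Or.inl (isUnit_of_resK_ne hA hB x hx)

lemma mem_maximalIdeal_fib {x : Fib hA hB} :
    x ∈ maximalIdeal (Fib hA hB) ↔ resK hA x.1.1 = 0 := by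
  refine ⟨fun h => by_contra fun hx => h (isUnit_of_resK_ne hA hB x hx), fun h hu => ?_⟩
  have h1 : IsUnit x.1.1 := hu.map ((AlgHom.fst 𝒪 A B).comp (Fib hA hB).val)
  exact (resK_eq_zero_iff hA _).mp h h1

variable [Finite (ResidueField 𝒪)]

lemma test_fib : IsArtinianTestAlgebra 𝒪 (Fib hA hB) where
  isLocalHom := ⟨fun a ha => by
    haveI := hA.isLocalHom
    exact IsLocalHom.map_nonunit (f := algebraMap 𝒪 A) a
      (ha.map ((AlgHom.fst 𝒪 A B).comp (Fib hA hB).val))⟩
  residue_surjective := fun y => by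
    obtain ⟨x, rfl⟩ := residue_surjective y
    obtain ⟨a, ha⟩ := residue_surjective (resK hA x.1.1)
    refine ⟨a, Ideal.Quotient.eq.mpr ((mem_maximalIdeal_fib hA hB).mpr ?_)⟩
    show resK hA (algebraMap 𝒪 A a - x.1.1) = 0
    rw [map_sub, AlgHom.commutes, sub_eq_zero]
    exact ha
  isArtinian := by
    haveI := finite_of_test hA
    haveI := finite_of_test hB
    exact isArtinian_of_finite

variable {TA : GalQ → A} {TB : GalQ → B}

lemma resK_isDef {T : GalQ → A} (h : ResCond ρbar T) (σ : GalQ) :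
    resK hA (T σ) = residue 𝒪 (traceLift 𝒪 ρbar σ) := by
  have := (resK_eq_zero_iff hA _).mpr (h σ)
  rwa [map_sub, AlgHom.commutes, sub_eq_zero] at this

/-- The trace function on the fibre product. -/
def fibTrace (hTA : IsDef ρbar 𝒟 A TA) (hTB : IsDef ρbar 𝒟 B TB) (σ : GalQ) : Fib hA hB :=
  ⟨(TA σ, TB σ), (mem_fib hA hB).mpr
    ((resK_isDef hA hTA.1 σ).trans (resK_isDef hB hTB.1 σ).symm)⟩

include habs h𝒟 in
lemma isDef_fib (hTA : IsDef ρbar 𝒟 A TA) (hTB : IsDef ρbar 𝒟 B TB) :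
    IsDef ρbar 𝒟 (Fib hA hB) (fibTrace hA hB hTA hTB) := by
  haveI := hA.isArtinian
  haveI := hB.isArtinian
  have hP := test_fib hA hB
  haveI := hP.isArtinian
  let pA : Fib hA hB →ₐ[𝒪] A := (AlgHom.fst 𝒪 A B).comp (Fib hA hB).val
  let pB : Fib hA hB →ₐ[𝒪] B := (AlgHom.snd 𝒪 A B).comp (Fib hA hB).val
  have hres : ResCond ρbar (fibTrace hA hB hTA hTB) := fun σ =>
    (mem_maximalIdeal_fib hA hB).mpr ((resK_eq_zero_iff hA _).mpr (hTA.1 σ))
  obtain ⟨-, ρA, hρA, -⟩ := id hTA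
  obtain ⟨-, ρB, hρB, -⟩ := id hTB
  obtain ⟨ρ, hρ⟩ := exists_rep_pair habs hP pA pB
    (fun x h1 h2 => Subtype.ext (Prod.ext h1 h2)) hres ρA ρB hρA hρB
  have hlA : IsLocalHom (pA : Fib hA hB →+* A) := isLocalHom_of_artinian _
  have hlB : IsLocalHom (pB : Fib hA hB →+* B) := isLocalHom_of_artinian _
  refine ⟨hres, ρ, hρ, h𝒟.of_fibreProduct hA hB test_residueField hP (resK hA) (resK hB) pA pB
    hlA hlB (AlgHom.ext fun x => (mem_fib hA hB).mp x.2) (fun x y h => ?_)
    (fun a b h => ⟨⟨(a, b), (mem_fib hA hB).mpr h⟩, rfl, rfl⟩) ?_ ?_⟩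
  · exact Subtype.ext h
  · exact hTA.mem_of_trace habs h𝒟 hA _ fun σ => by rw [trace_baseChangeAlong, hρ]; rfl
  · exact hTB.mem_of_trace habs h𝒟 hB _ fun σ => by rw [trace_baseChangeAlong, hρ]; rfl

end fibre

end FLTA.Deformation
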