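import Mathlib
import Fermat.Prelude.Def_GaloisRep_DeformationCondition
import Fermat.Agent.Deformation.TraceDef
import Fermat.Agent.Deformation.PowerSeriesBasic

/-!
Finiteness of the tangent space gives finitely many traces generating every deformation.
-/

set_option autoImplicit false

noncomputable section

namespace FLTA.Deformation

open IsLocalRing Matrix GaloisRep MvPowerSeries

variable {𝒪 : Type} [CommRing 𝒪] [IsLocalRing 𝒪]

/-- The algebra structure on dual numbers used in `TangentFinite`. -/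
abbrev dualAlgebra (𝒪 : Type) [CommRing 𝒪] [IsLocalRing 𝒪] :
    Algebra 𝒪 (DualNumber (ResidueField 𝒪)) :=
  ((algebraMap (ResidueField 𝒪) (DualNumber (ResidueField 𝒪))).comp
    (algebraMap 𝒪 (ResidueField 𝒪))).toAlgebra

lemma mem_maximalIdeal_dual (x : DualNumber (ResidueField 𝒪)) :
    x ∈ maximalIdeal (DualNumber (ResidueField 𝒪)) ↔ TrivSqZeroExt.fst x = 0 := by
  rw [mem_maximalIdeal, mem_nonunits_iff, TrivSqZeroExt.isUnit_iff_isUnit_fst, isUnit_iff_ne_zero,
    not_not]

lemma test_dual [Finite (ResidueField 𝒪)] :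
    letI := dualAlgebra 𝒪
    IsArtinianTestAlgebra 𝒪 (DualNumber (ResidueField 𝒪)) := by
  letI := dualAlgebra 𝒪
  refine ⟨⟨fun a ha => ?_⟩, fun y => ?_, ?_⟩
  · have h : IsUnit (residue 𝒪 a) := TrivSqZeroExt.isUnit_iff_isUnit_fst.mp ha
    exact IsLocalHom.map_nonunit a h
  · obtain ⟨x, rfl⟩ := residue_surjective y
    obtain ⟨a, ha⟩ := residue_surjective (TrivSqZeroExt.fst x)
    refine ⟨a, Ideal.Quotient.eq.mpr ((mem_maximalIdeal_dual _).mpr ?_)⟩
    show residue 𝒪 a - TrivSqZeroExt.fst x = 0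
    rw [ha, sub_self]
  · haveI : Finite (DualNumber (ResidueField 𝒪)) :=
      inferInstanceAs (Finite (ResidueField 𝒪 × ResidueField 𝒪))
    exact isArtinian_of_finite

variable (ρbar : ResidualGaloisRep (ResidueField 𝒪))
  (𝒟 : ∀ ⦃A : Type⦄ [CommRing A] [IsLocalRing A] [Algebra 𝒪 A], GaloisRepAdic A → Prop)

/-- A finite family of group elements detecting all tangent directions. -/
def DetectsTangent {r : ℕ} (g : Fin r → GalQ) : Prop :=
  letI := dualAlgebra 𝒪
  ∀ T : GalQ → DualNumber (ResidueField 𝒪), IsDef ρbar 𝒟 (DualNumber (ResidueField 𝒪)) T →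
    (∀ i, TrivSqZeroExt.snd (T (g i)) = 0) → ∀ σ, TrivSqZeroExt.snd (T σ) = 0

lemma exists_detectsTangent [Finite (ResidueField 𝒪)] (habs : ρbar.IsAbsolutelyIrreducible)
    (hfin : GaloisRep.TangentFinite 𝒪 ρbar 𝒟) :
    ∃ (r : ℕ) (g : Fin r → GalQ), DetectsTangent ρbar 𝒟 g := by
  classical
  letI := dualAlgebra 𝒪
  letI : Algebra (ResidueField 𝒪) (ResidueField (DualNumber (ResidueField 𝒪))) :=
    ((IsLocalRing.residue (DualNumber (ResidueField 𝒪))).comp
      (algebraMap (ResidueField 𝒪) (DualNumber (ResidueField 𝒪)))).toAlgebra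
  let Sub := {ρ : GaloisRepAdic (DualNumber (ResidueField 𝒪)) //
      𝒟 ρ ∧ ρ.residual.IsEquiv (ρbar.baseChange (ResidueField (DualNumber (ResidueField 𝒪))))}
  let s : Setoid Sub := ⟨fun ρ ρ' => ρ.1.IsEquiv ρ'.1, ⟨fun ρ => ⟨GaloisRepAdic.Equiv.refl ρ.1⟩,
        fun ⟨e⟩ => ⟨e.symm⟩, fun ⟨e⟩ ⟨e'⟩ => ⟨e.trans e'⟩⟩⟩
  haveI : Finite (Quotient s) := hfin
  haveI := Fintype.ofFinite (Quotient s)
  let gq : Quotient s → GalQ := fun q =>
    if h : ∃ σ, TrivSqZeroExt.snd (q.out.1.trace σ) ≠ 0 then h.choose else 1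
  refine ⟨Fintype.card (Quotient s), fun i => gq ((Fintype.equivFin _).symm i),
    fun T ⟨hres, ρ, hρ, hD⟩ hg σ => by_contra fun hσ => ?_⟩
  haveI := (test_dual (𝒪 := 𝒪)).isLocalHom
  have hι : ResidueField.map (algebraMap 𝒪 (DualNumber (ResidueField 𝒪))) =
      algebraMap (ResidueField 𝒪) (ResidueField (DualNumber (ResidueField 𝒪))) := by
    ext y
    obtain ⟨a, rfl⟩ := residue_surjective y
    rw [ResidueField.map_residue]
    rfl
  have hresid : ρ.residual.IsEquiv
      (ρbar.baseChangeAlong (ResidueField.map (algebraMap 𝒪 (DualNumber (ResidueField 𝒪))))) :=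
    (residual_isEquiv_iff ρbar habs test_dual.residue_surjective ρ).mpr
      ((funext hρ : ρ.trace = T) ▸ hres)
  rw [hι] at hresid
  let x : Sub := ⟨ρ, hD, hresid⟩
  let q : Quotient s := Quotient.mk s x
  have he : ∀ τ, q.out.1.trace τ = T τ := fun τ => by
    rw [trace_eq_of_isEquiv (Quotient.mk_out (s := s) x) τ]
    exact hρ τ
  have hex : ∃ σ, TrivSqZeroExt.snd (q.out.1.trace σ) ≠ 0 := ⟨σ, by rwa [he]⟩
  refine hex.choose_spec ?_
  rw [he]
  have h2 := hg (Fintype.equivFin _ q)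
  simp only [Equiv.symm_apply_apply] at h2
  simpa [gq, dif_pos hex] using h2

section eval

variable {r : ℕ} {A : Type} [CommRing A] [IsLocalRing A] [Algebra 𝒪 A]

/-- Algebra maps out of the power series ring preserve the maximal ideal. -/
lemma map_mem_maximalIdeal (hsurj : Function.Surjective (residue A ∘ algebraMap 𝒪 A))
    (φ : MvPowerSeries (Fin r) 𝒪 →ₐ[𝒪] A) {x : MvPowerSeries (Fin r) 𝒪}
    (hx : x ∈ maximalIdeal (MvPowerSeries (Fin r) 𝒪)) : φ x ∈ maximalIdeal A := by
  intro hu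
  obtain ⟨c, hc⟩ := hsurj (residue A (φ x))
  have hc' : algebraMap 𝒪 A c - φ x ∈ maximalIdeal A := Ideal.Quotient.eq.mp hc
  have h0 : ¬ IsUnit (algebraMap 𝒪 (MvPowerSeries (Fin r) 𝒪) c - x) := fun h => by
    have := h.map φ
    rw [map_sub, AlgHom.commutes] at this
    exact hc' this
  have hcS : algebraMap 𝒪 (MvPowerSeries (Fin r) 𝒪) c ∈ maximalIdeal _ := by
    have := add_mem ((mem_maximalIdeal _).mpr h0) hx
    rwa [sub_add_cancel] at this
  have hcA : ¬ IsUnit (algebraMap 𝒪 A c) := fun h => by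
    refine hcS ((?_ : IsUnit c).map _)
    by_contra hcn
    -- a non-unit of `𝒪` stays a non-unit: its residue would be invertible
    obtain ⟨b, hb⟩ := h.exists_right_inv
    obtain ⟨d, hd⟩ := hsurj (residue A b)
    have : residue A (algebraMap 𝒪 A (c * d)) = 1 := by
      rw [map_mul, map_mul, show residue A (algebraMap 𝒪 A d) = residue A b from hd, ← map_mul,
        hb, map_one]
    have hu1 : IsUnit (1 - c * d) :=
      isUnit_one_sub_self_of_mem_nonunits _ (Ideal.mul_mem_right d (maximalIdeal 𝒪) hcn)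
    have hu2 : IsUnit (residue A (algebraMap 𝒪 A (1 - c * d))) :=
      (hu1.map (algebraMap 𝒪 A)).map (residue A)
    rw [map_sub, map_sub, map_one, map_one, this, sub_self] at hu2
    exact not_isUnit_zero hu2
  have := sub_mem (show algebraMap 𝒪 A c ∈ maximalIdeal A from hcA) hc'
  rw [sub_sub_cancel] at this
  exact this hu

lemma map_mem_pow (hsurj : Function.Surjective (residue A ∘ algebraMap 𝒪 A))
    (φ : MvPowerSeries (Fin r) 𝒪 →ₐ[𝒪] A) {n : ℕ} {x : MvPowerSeries (Fin r) 𝒪}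
    (hx : x ∈ maximalIdeal (MvPowerSeries (Fin r) 𝒪) ^ n) : φ x ∈ maximalIdeal A ^ n := by
  have := Ideal.mem_map_of_mem φ.toRingHom hx
  rw [Ideal.map_pow] at this
  exact Ideal.pow_right_mono (Ideal.map_le_iff_le_comap.mpr fun y hy =>
    Ideal.mem_comap.mpr (map_mem_maximalIdeal hsurj φ hy)) n this

lemma sub_trunc_mem_maximal_pow (x : MvPowerSeries (Fin r) 𝒪) (n : ℕ) :
    x - (truncTotal n x : MvPolynomial (Fin r) 𝒪) ∈
      maximalIdeal (MvPowerSeries (Fin r) 𝒪) ^ n :=
  Ideal.pow_right_mono (by rw [maximalIdeal_eq]; exact le_sup_right) n (sub_trunc_mem_pow x n)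

/-- An algebra map out of the power series ring is determined by the images of the variables. -/
lemma powerSeries_algHom_ext [IsHausdorff (maximalIdeal A) A]
    (hsurj : Function.Surjective (residue A ∘ algebraMap 𝒪 A))
    {φ ψ : MvPowerSeries (Fin r) 𝒪 →ₐ[𝒪] A}
    (h : ∀ i, φ (MvPowerSeries.X i) = ψ (MvPowerSeries.X i)) : φ = ψ := by
  ext x
  refine sub_eq_zero.mp (IsHausdorff.haus (I := maximalIdeal A) inferInstance _ fun n => ?_)
  rw [SModEq.zero, smul_eq_mul, Ideal.mul_top]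
  have hp : ∀ p : MvPolynomial (Fin r) 𝒪, φ (p : MvPowerSeries (Fin r) 𝒪) = ψ p := by
    intro p
    have : φ.comp (MvPolynomial.coeToMvPowerSeries.algHom 𝒪) =
        ψ.comp (MvPolynomial.coeToMvPowerSeries.algHom 𝒪) :=
      MvPolynomial.algHom_ext fun i => by simpa using h i
    simpa using AlgHom.congr_fun this p
  have h1 := map_mem_pow hsurj φ (sub_trunc_mem_maximal_pow x n)
  have h2 := map_mem_pow hsurj ψ (sub_trunc_mem_maximal_pow x n)
  rw [map_sub] at h1 h2
  have := sub_mem h1 h2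
  rwa [hp, sub_sub_sub_cancel_right] at this

variable [IsArtinianRing A]

/-- Evaluation of power series at elements of the maximal ideal of an Artinian local algebra. -/
def artEval (a : Fin r → A) (ha : ∀ i, a i ∈ maximalIdeal A) :
    MvPowerSeries (Fin r) 𝒪 →ₐ[𝒪] A :=
  let N := ((isArtinianRing_iff_isNilpotent_maximalIdeal A).mp ‹_›).choose
  (Ideal.Quotient.liftₐ (MvPolynomial.idealOfVars (Fin r) 𝒪 ^ N) (MvPolynomial.aeval a) (by
    intro p hp
    have h1 : (MvPolynomial.idealOfVars (Fin r) 𝒪).map (MvPolynomial.aeval a).toRingHom ≤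
        maximalIdeal A := by
      rw [MvPolynomial.idealOfVars, Ideal.map_span, Ideal.span_le]
      rintro _ ⟨_, ⟨i, rfl⟩, rfl⟩
      simpa using ha i
    have h2 := Ideal.mem_map_of_mem (MvPolynomial.aeval a).toRingHom hp
    rw [Ideal.map_pow] at h2
    have h3 := Ideal.pow_right_mono h1 N h2
    rw [((isArtinianRing_iff_isNilpotent_maximalIdeal A).mp ‹_›).choose_spec] at h3
    simpa using h3)).comp
  ((MvPowerSeries.truncTotalAlgHom (Fin r) 𝒪 N).restrictScalars 𝒪)

lemma artEval_X (a : Fin r → A) (ha : ∀ i, a i ∈ maximalIdeal A) (i : Fin r) :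
    artEval a ha (MvPowerSeries.X i : MvPowerSeries (Fin r) 𝒪) = a i := by
  have h : (MvPowerSeries.X i : MvPowerSeries (Fin r) 𝒪) =
      algebraMap (MvPolynomial (Fin r) 𝒪) (MvPowerSeries (Fin r) 𝒪) (MvPolynomial.X i) := by
    simp [MvPowerSeries.algebraMap_apply', MvPowerSeries.map_id]
  simp only [artEval, AlgHom.comp_apply, AlgHom.restrictScalars_apply]
  rw [h, AlgHom.commutes]
  exact MvPolynomial.aeval_X a i

end eval

section generation

variable {ρbar 𝒟} [Finite (ResidueField 𝒪)]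
variable (habs : ρbar.IsAbsolutelyIrreducible) (h𝒟 : IsDeformationCondition 𝒪 𝒟)
variable {r : ℕ} {g : Fin r → GalQ} (hg : DetectsTangent ρbar 𝒟 g)
variable {B : Type} [CommRing B] [IsLocalRing B] [Algebra 𝒪 B]
  (hB : IsArtinianTestAlgebra 𝒪 B)

/-- The candidate generators attached to a trace function. -/
abbrev genVal (ρbar : ResidualGaloisRep (ResidueField 𝒪)) (g : Fin r → GalQ) (T : GalQ → B)
    (i : Fin r) : B :=
  T (g i) - algebraMap 𝒪 B (traceLift 𝒪 ρbar (g i))

/-- The classifying map of a deformation from the power series ring. -/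
def classify (g : Fin r → GalQ) {T : GalQ → B} (hT : IsDef ρbar 𝒟 B T) :
    MvPowerSeries (Fin r) 𝒪 →ₐ[𝒪] B :=
  haveI := hB.isArtinian
  artEval (genVal ρbar g T) fun i => hT.1 (g i)

include h𝒟 hg hB in
lemma range_classify_eq_top {T : GalQ → B} (hT : IsDef ρbar 𝒟 B T)
    (htop : Algebra.adjoin 𝒪 (Set.range T) = ⊤) : (classify hB g hT).range = ⊤ := by
  haveI := hB.isArtinian
  haveI := hB.isLocalHom
  let m := maximalIdeal B
  let N : Ideal B := m ^ 2 ⊔ (maximalIdeal 𝒪).map (algebraMap 𝒪 B) ⊔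
    Ideal.span (Set.range (genVal ρbar g T))
  have hNm : N ≤ m := sup_le (sup_le (Ideal.pow_le_self two_ne_zero)
    (Ideal.map_le_iff_le_comap.mpr fun a ha => map_nonunit (algebraMap 𝒪 B) a ha))
    (Ideal.span_le.mpr (by rintro _ ⟨i, rfl⟩; exact hT.1 (g i)))
  have hOm : ∀ c, algebraMap 𝒪 B c ∈ m → c ∈ maximalIdeal 𝒪 := fun c hc hu =>
    hc (hu.map (algebraMap 𝒪 B))
  have hON : ∀ c ∈ maximalIdeal 𝒪, algebraMap 𝒪 B c ∈ N := fun c hc =>
    Ideal.mem_sup_left (Ideal.mem_sup_right (Ideal.mem_map_of_mem _ hc))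
  have hdec : ∀ b : B, ∃ c, b - algebraMap 𝒪 B c ∈ m := fun b => by
    obtain ⟨c, hc⟩ := hB.residue_surjective (residue B b)
    exact ⟨c, Ideal.Quotient.eq.mp hc.symm⟩
  -- every trace differs from its constant term by an element of `N`
  have key : ∀ σ, T σ - algebraMap 𝒪 B (traceLift 𝒪 ρbar σ) ∈ N := by
    intro σ
    by_contra hσ
    set d := T σ - algebraMap 𝒪 B (traceLift 𝒪 ρbar σ) with hd
    let M : Submodule 𝒪 B := N.restrictScalars 𝒪 ⊔ Submodule.span 𝒪 {1}
    have hdM : d ∉ M := by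
      intro h
      obtain ⟨n, hn, o, ho, hno⟩ := Submodule.mem_sup.mp h
      obtain ⟨c, rfl⟩ := Submodule.mem_span_singleton.mp ho
      rw [Algebra.smul_def, mul_one] at hno
      have : algebraMap 𝒪 B c ∈ m := by
        have := sub_mem (hT.1 σ) (hNm hn)
        rwa [← hd, ← hno, add_sub_cancel_left] at this
      exact hσ (hno ▸ N.add_mem hn (hON c (hOm c this)))
    have htors : Module.IsTorsionBySet 𝒪 (B ⧸ M) (maximalIdeal 𝒪 : Set 𝒪) := by
      intro x c
      obtain ⟨b, rfl⟩ := Submodule.Quotient.mk_surjective M x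
      rw [← Submodule.Quotient.mk_smul, Submodule.Quotient.mk_eq_zero, Algebra.smul_def]
      exact Submodule.mem_sup_left (N.mul_mem_right b (hON c c.2))
    letI : Module (ResidueField 𝒪) (B ⧸ M) := htors.module
    have hd0 : (Submodule.Quotient.mk d : B ⧸ M) ≠ 0 := by
      rwa [Ne, Submodule.Quotient.mk_eq_zero]
    obtain ⟨F, hF⟩ : ∃ F : Module.Dual (ResidueField 𝒪) (B ⧸ M),
        F (Submodule.Quotient.mk d) ≠ 0 := by
      by_contra h
      push Not at h
      exact hd0 ((Module.forall_dual_apply_eq_zero_iff (ResidueField 𝒪) _).mp h)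
    let f : B → ResidueField 𝒪 := fun b => F (Submodule.Quotient.mk b)
    have fadd : ∀ a b, f (a + b) = f a + f b := fun a b => by simp [f]
    have fsmul : ∀ (c : 𝒪) b, f (algebraMap 𝒪 B c * b) = residue 𝒪 c * f b := fun c b => by
      show F _ = residue 𝒪 c * F _
      rw [← Algebra.smul_def, Submodule.Quotient.mk_smul, ← smul_eq_mul, ← map_smul]
      rfl
    have fM : ∀ x ∈ M, f x = 0 := fun x hx => by
      show F _ = 0
      rw [(Submodule.Quotient.mk_eq_zero M).mpr hx, map_zero]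
    have fN : ∀ x ∈ N, f x = 0 := fun x hx => fM x (Submodule.mem_sup_left hx)
    have f1 : f 1 = 0 := fM 1 (Submodule.mem_sup_right (Submodule.mem_span_singleton_self 1))
    have fc : ∀ c, f (algebraMap 𝒪 B c) = 0 := fun c => by
      rw [← mul_one (algebraMap 𝒪 B c), fsmul, f1, mul_zero]
    have rc : ∀ b c, b - algebraMap 𝒪 B c ∈ m → resK hB b = residue 𝒪 c := fun b c h => by
      have := (resK_eq_zero_iff hB _).mpr h
      rwa [map_sub, AlgHom.commutes, sub_eq_zero] at this
    have fsub : ∀ b c, f (b - algebraMap 𝒪 B c) = f b := fun b c => by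
      have := fadd (b - algebraMap 𝒪 B c) (algebraMap 𝒪 B c)
      rw [sub_add_cancel, fc, add_zero] at this
      exact this.symm
    have fmul : ∀ a b, f (a * b) = resK hB a * f b + f a * resK hB b := by
      intro a b
      obtain ⟨c, hc⟩ := hdec a
      obtain ⟨e, he⟩ := hdec b
      have : a * b = (algebraMap 𝒪 B c * b + algebraMap 𝒪 B e * (a - algebraMap 𝒪 B c)) +
          (a - algebraMap 𝒪 B c) * (b - algebraMap 𝒪 B e) := by ring
      have h2 : (a - algebraMap 𝒪 B c) * (b - algebraMap 𝒪 B e) ∈ m ^ 2 := by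
        rw [pow_two]; exact Ideal.mul_mem_mul hc he
      rw [this, fadd, fadd, fsmul, fsmul, fsub, rc a c hc, rc b e he,
        fN _ (Ideal.mem_sup_left (Ideal.mem_sup_left h2))]
      ring
    letI := dualAlgebra 𝒪
    let φ : B →ₐ[𝒪] DualNumber (ResidueField 𝒪) :=
      { toFun := fun b => TrivSqZeroExt.inl (resK hB b) + TrivSqZeroExt.inr (f b)
        map_one' := by simp [f1]
        map_zero' := by
          have : f 0 = 0 := by simp [f]
          simp [this]
        map_add' := fun a b => by ext <;> simp [fadd]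
        map_mul' := fun a b => by
          ext
          · simp
          · simp only [TrivSqZeroExt.snd_add, TrivSqZeroExt.snd_inl, TrivSqZeroExt.snd_inr,
              TrivSqZeroExt.snd_mul, TrivSqZeroExt.fst_add, TrivSqZeroExt.fst_inl,
              TrivSqZeroExt.fst_inr, zero_add, add_zero, fmul, op_smul_eq_smul, smul_eq_mul]
            ring
        commutes' := fun c => by
          ext
          · simp only [TrivSqZeroExt.fst_add, TrivSqZeroExt.fst_inl, TrivSqZeroExt.fst_inr,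
              add_zero, AlgHom.commutes]
            rfl
          · simp only [TrivSqZeroExt.snd_add, TrivSqZeroExt.snd_inl, TrivSqZeroExt.snd_inr,
              zero_add, fc]
            rfl }
    have hsnd : ∀ b, TrivSqZeroExt.snd (φ b) = f b := fun b => by simp [φ]
    have := hg _ (hT.map h𝒟 hB test_dual φ) (fun i => by
      rw [hsnd, ← fsub _ (traceLift 𝒪 ρbar (g i))]
      exact fN _ (Ideal.mem_sup_right (Ideal.subset_span ⟨i, rfl⟩))) σ
    rw [hsnd, ← fsub _ (traceLift 𝒪 ρbar σ)] at this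
    exact hF this
  -- hence `m ≤ N`
  let E : Subalgebra 𝒪 B :=
    { carrier := {x | ∃ c, x - algebraMap 𝒪 B c ∈ N}
      mul_mem' := by
        rintro a b ⟨c, hc⟩ ⟨e, he⟩
        refine ⟨c * e, ?_⟩
        rw [map_mul, show a * b - algebraMap 𝒪 B c * algebraMap 𝒪 B e =
          (a - algebraMap 𝒪 B c) * b + algebraMap 𝒪 B c * (b - algebraMap 𝒪 B e) by ring]
        exact N.add_mem (N.mul_mem_right _ hc) (N.mul_mem_left _ he)
      add_mem' := by
        rintro a b ⟨c, hc⟩ ⟨e, he⟩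
        refine ⟨c + e, ?_⟩
        rw [map_add, add_sub_add_comm]
        exact N.add_mem hc he
      algebraMap_mem' := fun c => ⟨c, by simp⟩ }
  have hE : ∀ b, b ∈ E := fun b => by
    have : Algebra.adjoin 𝒪 (Set.range T) ≤ E :=
      Algebra.adjoin_le (by rintro _ ⟨σ, rfl⟩; exact ⟨_, key σ⟩)
    exact this (htop ▸ Algebra.mem_top)
  have hmN : m ≤ N := fun b hb => by
    obtain ⟨c, hc⟩ := hE b
    have hcm : algebraMap 𝒪 B c ∈ m := by
      have := sub_mem hb (hNm hc)
      rwa [sub_sub_cancel] at this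
    have := N.add_mem hc (hON c (hOm c hcm))
    rwa [sub_add_cancel] at this
  -- Nakayama for the image of the classifying map
  set P := (classify hB g hT).range with hP
  have hgen : ∀ i, genVal ρbar g T i ∈ P := fun i => ⟨MvPowerSeries.X i, artEval_X _ _ i⟩
  have step1 : ∀ x ∈ m, ∃ p ∈ P, p ∈ m ∧ x - p ∈ m ^ 2 := by
    intro x hx
    obtain ⟨y, hy, z, hz, rfl⟩ := Submodule.mem_sup.mp (hmN hx)
    obtain ⟨y1, hy1, y2, hy2, rfl⟩ := Submodule.mem_sup.mp hy
    let C : Ideal B → Prop := fun K => ∀ w ∈ K, ∃ p ∈ P, p ∈ m ∧ w - p ∈ m ^ 2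
    have gen : ∀ a ∈ P, a ∈ m → ∀ b : B, ∃ p ∈ P, p ∈ m ∧ b * a - p ∈ m ^ 2 := by
      intro a haP ham b
      obtain ⟨c, hc⟩ := hdec b
      refine ⟨algebraMap 𝒪 B c * a, P.mul_mem (P.algebraMap_mem c) haP, m.mul_mem_left _ ham, ?_⟩
      rw [← sub_mul, pow_two]
      exact Ideal.mul_mem_mul hc ham
    have span : ∀ s : Set B, (∀ a ∈ s, a ∈ P ∧ a ∈ m) →
        ∀ w ∈ Ideal.span s, ∃ p ∈ P, p ∈ m ∧ w - p ∈ m ^ 2 := by
      intro s hs w hw
      induction hw using Submodule.span_induction with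
      | mem a ha => exact ⟨a, (hs a ha).1, (hs a ha).2, by simp⟩
      | zero => exact ⟨0, P.zero_mem, zero_mem _, by simp⟩
      | add a b _ _ ha hb =>
        obtain ⟨p, hp, hp', h⟩ := ha
        obtain ⟨q, hq, hq', h'⟩ := hb
        exact ⟨p + q, P.add_mem hp hq, add_mem hp' hq', by
          rw [add_sub_add_comm]; exact add_mem h h'⟩
      | smul b a _ ha =>
        obtain ⟨p, hp, hp', h⟩ := ha
        obtain ⟨q, hq, hq', h'⟩ := gen p hp hp' b
        refine ⟨q, hq, hq', ?_⟩
        rw [smul_eq_mul, show b * a - q = b * (a - p) + (b * p - q) by ring]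
        exact add_mem ((m ^ 2).mul_mem_left b h) h'
    obtain ⟨p2, hp2, hp2', h2⟩ := span (algebraMap 𝒪 B '' maximalIdeal 𝒪) (by
      rintro _ ⟨c, hc, rfl⟩
      exact ⟨P.algebraMap_mem c, map_nonunit (algebraMap 𝒪 B) c hc⟩) y2 (by
      rw [← Ideal.map]
      exact hy2)
    obtain ⟨p3, hp3, hp3', h3⟩ := span (Set.range (genVal ρbar g T)) (by
      rintro _ ⟨i, rfl⟩
      exact ⟨hgen i, hT.1 (g i)⟩) z hz
    refine ⟨p2 + p3, P.add_mem hp2 hp3, add_mem hp2' hp3', ?_⟩
    rw [show y1 + y2 + z - (p2 + p3) = y1 + ((y2 - p2) + (z - p3)) by ring]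
    exact add_mem hy1 (add_mem h2 h3)
  have step : ∀ j, ∀ x ∈ m ^ (j + 1), ∃ p ∈ P, p ∈ m ^ (j + 1) ∧ x - p ∈ m ^ (j + 2) := by
    intro j
    induction j with
    | zero => simpa using step1
    | succ j ih =>
      intro x hx
      rw [pow_succ] at hx
      refine Submodule.mul_induction_on hx ?_ ?_
      · intro a ha b hb
        obtain ⟨p, hp, hp', h⟩ := ih a ha
        obtain ⟨q, hq, hq', h'⟩ := step1 b hb
        refine ⟨p * q, P.mul_mem hp hq, by rw [pow_succ]; exact Ideal.mul_mem_mul hp' hq', ?_⟩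
        rw [show a * b - p * q = (a - p) * b + p * (b - q) by ring]
        refine add_mem ?_ ?_
        · rw [pow_succ]; exact Ideal.mul_mem_mul h hb
        · rw [show j + 1 + 2 = (j + 1) + 2 by rfl, pow_add]; exact Ideal.mul_mem_mul hp' h'
      · rintro a b ⟨p, hp, hp', h⟩ ⟨q, hq, hq', h'⟩
        exact ⟨p + q, P.add_mem hp hq, add_mem hp' hq', by
          rw [add_sub_add_comm]; exact add_mem h h'⟩
  refine top_unique fun b _ => ?_
  have approx : ∀ j, ∃ p ∈ P, b - p ∈ m ^ (j + 1) := by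
    intro j
    induction j with
    | zero =>
      obtain ⟨c, hc⟩ := hdec b
      exact ⟨_, P.algebraMap_mem c, by simpa using hc⟩
    | succ j ih =>
      obtain ⟨p, hp, h⟩ := ih
      obtain ⟨q, hq, -, h'⟩ := step j _ h
      exact ⟨p + q, P.add_mem hp hq, by rw [← sub_sub]; exact h'⟩
  obtain ⟨n, hn⟩ := (isArtinianRing_iff_isNilpotent_maximalIdeal B).mp hB.isArtinian
  obtain ⟨p, hp, h⟩ := approx n
  have : b - p = 0 := by
    have hz : m ^ (n + 1) = 0 := by rw [pow_succ, show m ^ n = 0 from hn, zero_mul]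
    simpa [hz] using h
  rwa [sub_eq_zero.mp this]

include habs h𝒟 hg hB in
/-- All traces of a deformation lie in the image of its classifying map. -/
lemma trace_mem_range_classify {T : GalQ → B} (hT : IsDef ρbar 𝒟 B T) (σ : GalQ) :
    T σ ∈ (classify hB g hT).range := by
  haveI := hB.isArtinian
  haveI := hB.isLocalHom
  let B₀ := Algebra.adjoin 𝒪 (Set.range T)
  have hsplit : ∀ x : B₀, ∃ c : 𝒪, (x : B) - algebraMap 𝒪 B c ∈ maximalIdeal B := fun x => by
    obtain ⟨c, hc⟩ := hB.residue_surjective (residue B x)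
    exact ⟨c, Ideal.Quotient.eq.mp hc.symm⟩
  have hnil : ∀ x : B₀, (x : B) ∈ maximalIdeal B → IsNilpotent x := fun x hx => by
    obtain ⟨n, hn⟩ := (isArtinianRing_iff_isNilpotent_maximalIdeal B).mp hB.isArtinian
    exact ⟨n, Subtype.ext (by simpa [hn] using Ideal.pow_mem_pow hx n)⟩
  have hunit : ∀ x : B₀, IsUnit (x : B) → IsUnit x := fun x hx => by
    obtain ⟨c, hc⟩ := hsplit x
    have hcu : IsUnit c := by
      by_contra h
      exact (add_mem hc (map_nonunit (algebraMap 𝒪 B) c h) : _ ∈ maximalIdeal B)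
        (by rwa [sub_add_cancel])
    have := (hnil (x - algebraMap 𝒪 B₀ c) hc).isUnit_add_left_of_commute
      (hcu.map (algebraMap 𝒪 B₀)) (Commute.all _ _)
    rwa [add_sub_cancel] at this
  haveI : IsLocalRing B₀ := by
    haveI : Nontrivial B₀ :=
      ⟨⟨0, 1, fun h => zero_ne_one (α := B) (congrArg Subtype.val h)⟩⟩
    refine IsLocalRing.of_isUnit_or_isUnit_one_sub_self fun x => ?_
    exact (IsLocalRing.isUnit_or_isUnit_one_sub_self (x : B)).imp (hunit x) (hunit (1 - x))
  have hB₀ : IsArtinianTestAlgebra 𝒪 B₀ :=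
    { isLocalHom := ⟨fun c hc => IsLocalHom.map_nonunit (f := algebraMap 𝒪 B) c (hc.map B₀.val)⟩
      residue_surjective := fun y => by
        obtain ⟨x, rfl⟩ := residue_surjective y
        obtain ⟨c, hc⟩ := hsplit x
        refine ⟨c, Ideal.Quotient.eq.mpr fun hu => ?_⟩
        have := neg_mem hc
        rw [neg_sub] at this
        exact this (hu.map B₀.val)
      isArtinian := by
        haveI := finite_of_test hB
        exact isArtinian_of_finite }
  let T₀ : GalQ → B₀ := fun σ => ⟨T σ, Algebra.subset_adjoin ⟨σ, rfl⟩⟩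
  have hT₀ : IsDef ρbar 𝒟 B₀ T₀ :=
    IsDef.descend habs h𝒟 hB₀ hB B₀.val Subtype.val_injective
      (fun σ hu => hT.1 σ (hu.map B₀.val)) hT
  have htop : Algebra.adjoin 𝒪 (Set.range T₀) = ⊤ := by
    refine top_unique fun x _ => ?_
    have h1 : x.1 ∈ (Algebra.adjoin 𝒪 (Set.range T₀)).map B₀.val := by
      rw [AlgHom.map_adjoin, ← Set.range_comp]
      exact x.2
    obtain ⟨y, hy, e⟩ := h1
    rwa [← Subtype.ext e]
  have h2 : (T₀ σ : B₀) ∈ (classify hB₀ g hT₀).range := by
    rw [range_classify_eq_top h𝒟 hg hB₀ hT₀ htop]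
    exact Algebra.mem_top
  obtain ⟨x, hx⟩ := h2
  refine ⟨x, ?_⟩
  haveI := hB₀.isArtinian
  have hcomp : B₀.val.comp (classify hB₀ g hT₀) = classify hB g hT :=
    powerSeries_algHom_ext hB.residue_surjective fun i => by
      simp only [AlgHom.comp_apply, classify, artEval_X]
      rfl
  rw [← hcomp]
  exact congrArg Subtype.val hx

end generation

end FLTA.Deformation
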