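import Mathlib
import Fermat.Prelude.Def_GaloisRep_DeformationCondition
import Fermat.Agent.Deformation.Generators

/-!
The universal deformation rings of bounded nilpotency index as quotients of a power series ring.
-/

set_option autoImplicit false

noncomputable section

namespace FLTA.Deformation

open IsLocalRing GaloisRep

section quot

variable {S : Type} [CommRing S] [IsLocalRing S]

lemma isLocalRing_quotient {I : Ideal S} (hI : I ≠ ⊤) : IsLocalRing (S ⧸ I) :=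
  haveI := Ideal.Quotient.nontrivial_iff.mpr hI
  IsLocalRing.of_surjective' (Ideal.Quotient.mk I) Ideal.Quotient.mk_surjective

lemma mem_maximalIdeal_quot {I : Ideal S} [IsLocalRing (S ⧸ I)] (x : S) :
    Ideal.Quotient.mk I x ∈ maximalIdeal (S ⧸ I) ↔ x ∈ maximalIdeal S := by
  refine ⟨fun h hu => h (hu.map _), fun h hu => h ?_⟩
  obtain ⟨y, hy⟩ := hu.exists_right_inv
  obtain ⟨y, rfl⟩ := Ideal.Quotient.mk_surjective y
  have hI : I ≤ maximalIdeal S := le_maximalIdeal fun e =>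
    (Ideal.Quotient.nontrivial_iff.mp (inferInstance : Nontrivial (S ⧸ I))) e
  rw [← map_mul, ← map_one (Ideal.Quotient.mk I), Ideal.Quotient.eq] at hy
  have : IsUnit (x * y) := by
    by_contra hn
    exact (show ¬ IsUnit (1 : S) from by
      have h1 := sub_mem (show x * y ∈ maximalIdeal S from hn) (hI hy)
      rwa [sub_sub_cancel] at h1) isUnit_one
  exact isUnit_of_mul_isUnit_left this

variable {𝒪 : Type} [CommRing 𝒪] [IsLocalRing 𝒪] [Algebra 𝒪 S]

lemma residue_surjective_quot (hS : Function.Surjective (residue S ∘ algebraMap 𝒪 S))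
    (I : Ideal S) [IsLocalRing (S ⧸ I)] :
    Function.Surjective (residue (S ⧸ I) ∘ algebraMap 𝒪 (S ⧸ I)) := by
  intro y
  obtain ⟨z, rfl⟩ := residue_surjective y
  obtain ⟨x, rfl⟩ := Ideal.Quotient.mk_surjective z
  obtain ⟨c, hc⟩ := hS (residue S x)
  refine ⟨c, Ideal.Quotient.eq.mpr ?_⟩
  rw [← Ideal.Quotient.mk_algebraMap, ← map_sub, mem_maximalIdeal_quot]
  exact Ideal.Quotient.eq.mp hc

lemma test_quot (hS : Function.Surjective (residue S ∘ algebraMap 𝒪 S))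
    [IsLocalHom (algebraMap 𝒪 S)] (I : Ideal S) [IsLocalRing (S ⧸ I)] (n : ℕ)
    (hn : maximalIdeal S ^ n ≤ I) [Finite (S ⧸ maximalIdeal S ^ n)] :
    IsArtinianTestAlgebra 𝒪 (S ⧸ I) where
  isLocalHom := ⟨fun c hc => by
    refine (inferInstance : IsLocalHom (algebraMap 𝒪 S)).map_nonunit c ?_
    by_contra h
    rw [← Ideal.Quotient.mk_algebraMap] at hc
    exact (mem_maximalIdeal_quot (I := I) _).mpr h hc⟩
  residue_surjective := residue_surjective_quot hS I
  isArtinian := by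
    haveI : Finite (S ⧸ I) := Finite.of_surjective _ (Ideal.Quotient.factor_surjective hn)
    exact isArtinian_of_finite

end quot

variable (𝒪 : Type) [CommRing 𝒪] [IsDomain 𝒪] [IsDiscreteValuationRing 𝒪]
  [Finite (ResidueField 𝒪)]

lemma surjective_residue_powerSeries (r : ℕ) : Function.Surjective
    (residue (MvPowerSeries (Fin r) 𝒪) ∘ algebraMap 𝒪 (MvPowerSeries (Fin r) 𝒪)) := by
  intro y
  obtain ⟨x, rfl⟩ := residue_surjective y
  refine ⟨MvPowerSeries.constantCoeff x, Ideal.Quotient.eq.mpr ?_⟩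
  rw [mem_maximalIdeal, mem_nonunits_iff, MvPowerSeries.isUnit_iff_constantCoeff]
  simp [MvPowerSeries.algebraMap_apply]

instance instIsLocalHomAlgebraMapPowerSeries (r : ℕ) :
    IsLocalHom (algebraMap 𝒪 (MvPowerSeries (Fin r) 𝒪)) :=
  ⟨fun c hc => by
    simpa [MvPowerSeries.algebraMap_apply] using MvPowerSeries.isUnit_iff_constantCoeff.mp hc⟩

variable (ρbar : ResidualGaloisRep (ResidueField 𝒪))
  (𝒟 : ∀ ⦃A : Type⦄ [CommRing A] [IsLocalRing A] [Algebra 𝒪 A], GaloisRepAdic A → Prop)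

/-- The universal deformation among those whose maximal ideal has `(n+1)`-st power zero. -/
structure Level {r : ℕ} (g : Fin r → GalQ) (n : ℕ) where
  J : Ideal (MvPowerSeries (Fin r) 𝒪)
  t : GalQ → MvPowerSeries (Fin r) 𝒪
  ne_top : J ≠ ⊤
  pow_le : maximalIdeal (MvPowerSeries (Fin r) 𝒪) ^ (n + 1) ≤ J
  test : haveI := isLocalRing_quotient ne_top
    IsArtinianTestAlgebra 𝒪 (MvPowerSeries (Fin r) 𝒪 ⧸ J)
  isDef : haveI := isLocalRing_quotient ne_top
    IsDef ρbar 𝒟 (MvPowerSeries (Fin r) 𝒪 ⧸ J) fun σ => Ideal.Quotient.mk J (t σ)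
  gen : ∀ i, t (g i) - algebraMap 𝒪 (MvPowerSeries (Fin r) 𝒪) (traceLift 𝒪 ρbar (g i)) -
    MvPowerSeries.X i ∈ J
  univ : ∀ (B : Type) [CommRing B] [IsLocalRing B] [Algebra 𝒪 B]
    (hB : IsArtinianTestAlgebra 𝒪 B), maximalIdeal B ^ (n + 1) = ⊥ →
    ∀ (T : GalQ → B) (hT : IsDef ρbar 𝒟 B T),
      J ≤ RingHom.ker (classify hB g hT) ∧ ∀ σ, classify hB g hT (t σ) = T σ

variable {ρbar 𝒟} {r : ℕ} {g : Fin r → GalQ}

/-- A candidate kernel: the kernel of the classifying map of some deformation. -/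
def IsKer (g : Fin r → GalQ) (I : Ideal (MvPowerSeries (Fin r) 𝒪))
    (t : GalQ → MvPowerSeries (Fin r) 𝒪) : Prop :=
  ∃ (B : Type) (_ : CommRing B) (_ : IsLocalRing B) (_ : Algebra 𝒪 B)
    (hB : IsArtinianTestAlgebra 𝒪 B) (T : GalQ → B) (hT : IsDef ρbar 𝒟 B T),
    RingHom.ker (classify hB g hT) = I ∧ ∀ σ, classify hB g hT (t σ) = T σ

variable (habs : ρbar.IsAbsolutelyIrreducible) (h𝒟 : IsDeformationCondition 𝒪 𝒟)
variable (hg : DetectsTangent ρbar 𝒟 g)

include habs h𝒟 hg in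
lemma isKer_of_isDef {B : Type} [CommRing B] [IsLocalRing B] [Algebra 𝒪 B]
    (hB : IsArtinianTestAlgebra 𝒪 B) {T : GalQ → B} (hT : IsDef ρbar 𝒟 B T) :
    ∃ t, IsKer (ρbar := ρbar) (𝒟 := 𝒟) 𝒪 g (RingHom.ker (classify hB g hT)) t ∧
      ∀ σ, classify hB g hT (t σ) = T σ := by
  choose t ht using fun σ => trace_mem_range_classify habs h𝒟 hg hB hT σ
  exact ⟨t, ⟨B, _, _, _, hB, T, hT, rfl, ht⟩, ht⟩

include habs h𝒟 hg in
lemma isKer_inf {I₁ I₂ : Ideal (MvPowerSeries (Fin r) 𝒪)} {t₁ t₂ : GalQ → MvPowerSeries (Fin r) 𝒪}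
    (h₁ : IsKer (ρbar := ρbar) (𝒟 := 𝒟) 𝒪 g I₁ t₁)
    (h₂ : IsKer (ρbar := ρbar) (𝒟 := 𝒟) 𝒪 g I₂ t₂) :
    ∃ t, IsKer (ρbar := ρbar) (𝒟 := 𝒟) 𝒪 g (I₁ ⊓ I₂) t ∧
      ∀ σ, t σ - t₁ σ ∈ I₁ ∧ t σ - t₂ σ ∈ I₂ := by
  obtain ⟨A, _, _, _, hA, TA, hTA, rfl, hA'⟩ := h₁
  obtain ⟨B, _, _, _, hB, TB, hTB, rfl, hB'⟩ := h₂
  haveI := hA.isArtinian
  haveI := hB.isArtinian
  have hP := test_fib hA hB
  haveI := hP.isArtinian
  have hTP := isDef_fib habs h𝒟 hA hB hTA hTB
  obtain ⟨t, ht, ht'⟩ := isKer_of_isDef 𝒪 habs h𝒟 hg hP hTP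
  have eA : ((AlgHom.fst 𝒪 A B).comp (Fib hA hB).val).comp (classify hP g hTP) = classify hA g hTA :=
    powerSeries_algHom_ext hA.residue_surjective fun i => by
      simp only [AlgHom.comp_apply, classify, artEval_X]
      rfl
  have eB : ((AlgHom.snd 𝒪 A B).comp (Fib hA hB).val).comp (classify hP g hTP) = classify hB g hTB :=
    powerSeries_algHom_ext hB.residue_surjective fun i => by
      simp only [AlgHom.comp_apply, classify, artEval_X]
      rfl
  refine ⟨t, ?_, fun σ => ⟨?_, ?_⟩⟩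
  · convert ht using 1
    ext x
    simp only [Ideal.mem_inf, RingHom.mem_ker]
    rw [← eA, ← eB]
    exact ⟨fun h => Subtype.ext (Prod.ext h.1 h.2), fun h => by simp [h]⟩
  · rw [RingHom.mem_ker, map_sub, hA', sub_eq_zero, ← eA]
    exact congrArg (fun z => z.1.1) (ht' σ)
  · rw [RingHom.mem_ker, map_sub, hB', sub_eq_zero, ← eB]
    exact congrArg (fun z => z.1.2) (ht' σ)

include habs h𝒟 hg in
lemma exists_level (hbar : 𝒟 (GaloisRepAdic.ofResidualGaloisRep ρbar)) (n : ℕ) :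
    Nonempty (Level 𝒪 ρbar 𝒟 g n) := by
  classical
  let S := MvPowerSeries (Fin r) 𝒪
  let 𝔪 : Ideal S := maximalIdeal S ^ (n + 1)
  let 𝓘 : Set (Ideal S) := {I | 𝔪 ≤ I ∧ ∃ t, IsKer (ρbar := ρbar) (𝒟 := 𝒟) 𝒪 g I t}
  have hk : ResCond ρbar fun σ => residue 𝒪 (traceLift 𝒪 ρbar σ) := fun σ => by
    simp
  have hdk : IsDef ρbar 𝒟 (ResidueField 𝒪) fun σ => residue 𝒪 (traceLift 𝒪 ρbar σ) :=
    ⟨hk, GaloisRepAdic.ofResidualGaloisRep ρbar, fun σ =>
      (LinearMap.trace_eq_matrix_trace _ (barBasis ρbar) (ρbar.ρ σ)).trans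
      (residue_traceLift 𝒪 ρbar σ).symm, hbar⟩
  have hne : 𝓘.Nonempty := by
    obtain ⟨t, ht, -⟩ := isKer_of_isDef 𝒪 habs h𝒟 hg test_residueField hdk
    refine ⟨_, ?_, t, ht⟩
    intro x hx
    have := map_mem_pow test_residueField.residue_surjective
      (classify test_residueField g hdk) hx
    rw [maximalIdeal_eq_bot, pow_succ, Ideal.mul_bot, Ideal.mem_bot] at this
    exact this
  haveI : Finite (S ⧸ 𝔪) := finite_quotient 𝒪 (n + 1)
  have hfin : 𝓘.Finite := by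
    have : Set.InjOn (fun I : Ideal S => (Ideal.Quotient.mk 𝔪) '' (I : Set S)) 𝓘 := by
      intro I hI I' hI' e
      have : ∀ {I : Ideal S}, 𝔪 ≤ I → ∀ x, x ∈ I ↔ Ideal.Quotient.mk 𝔪 x ∈
          (Ideal.Quotient.mk 𝔪) '' (I : Set S) := fun {I} hI x =>
        ⟨fun h => ⟨x, h, rfl⟩, fun ⟨y, hy, e⟩ => by
          have := sub_mem hy (hI (Ideal.Quotient.eq.mp e))
          rwa [sub_sub_cancel] at this⟩
      ext x
      rw [this hI.1, this hI'.1]
      exact Set.ext_iff.mp e _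
    exact Set.Finite.of_finite_image (Set.toFinite _) this
  obtain ⟨J, hJ⟩ := hfin.exists_minimal hne
  obtain ⟨⟨hJpow, t, ht⟩, hJmin⟩ := hJ
  have ht0 := id ht
  obtain ⟨B₀, _, _, _, hB₀, T₀, hT₀, hker, ht'⟩ := ht
  haveI := hB₀.isArtinian
  have hJtop : J ≠ ⊤ := fun e => by
    have := e ▸ hker
    exact one_ne_zero (α := B₀) (by simpa using (this.symm ▸ Submodule.mem_top :
      (1 : S) ∈ RingHom.ker (classify hB₀ g hT₀)))
  haveI := isLocalRing_quotient hJtop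
  haveI : Finite (S ⧸ maximalIdeal S ^ (n + 1)) := finite_quotient 𝒪 (n + 1)
  have hQ := test_quot (surjective_residue_powerSeries 𝒪 r) J (n + 1) hJpow
  let φ : S ⧸ J →ₐ[𝒪] B₀ := Ideal.Quotient.liftₐ J (classify hB₀ g hT₀) fun a ha => by
    rw [← hker] at ha
    exact ha
  have hφ : Function.Injective φ := by
    rw [injective_iff_map_eq_zero]
    intro x hx
    obtain ⟨x, rfl⟩ := Ideal.Quotient.mk_surjective x
    rw [Ideal.Quotient.eq_zero_iff_mem, ← hker]
    exact hx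
  have hphi : ∀ x, φ (Ideal.Quotient.mk J x) = classify hB₀ g hT₀ x := fun x => rfl
  refine ⟨{
    J := J, t := t, ne_top := hJtop, pow_le := hJpow, test := hQ
    isDef := ?_
    gen := fun i => ?_
    univ := ?_ }⟩
  · refine IsDef.descend habs h𝒟 hQ hB₀ φ hφ (fun σ hu => ?_) ?_
    · have h1 := hu.map φ
      rw [map_sub, AlgHom.commutes, hphi, ht'] at h1
      exact hT₀.1 σ h1
    · simp only [hphi, ht']
      exact hT₀
  · rw [← hker, RingHom.mem_ker, map_sub, map_sub, ht', AlgHom.commutes]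
    rw [sub_eq_zero]
    exact (artEval_X (genVal ρbar g T₀) (fun i => hT₀.1 (g i)) i).symm
  · intro B _ _ _ hB hBn T hT
    obtain ⟨t', ht'', hcl⟩ := isKer_of_isDef 𝒪 habs h𝒟 hg hB hT
    obtain ⟨u, hu, hu'⟩ := isKer_inf 𝒪 habs h𝒟 hg ht0 ht''
    have hle : 𝔪 ≤ RingHom.ker (classify hB g hT) := fun x hx => by
      have := map_mem_pow hB.residue_surjective (classify hB g hT) hx
      rwa [hBn, Ideal.mem_bot] at this
    have hJle : J ≤ RingHom.ker (classify hB g hT) :=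
      (hJmin ⟨le_inf hJpow hle, u, hu⟩ inf_le_left).trans inf_le_right
    refine ⟨hJle, fun σ => ?_⟩
    have h1 := RingHom.mem_ker.mp (hJle (hu' σ).1)
    have h2 := RingHom.mem_ker.mp (hu' σ).2
    rw [map_sub, sub_eq_zero] at h1 h2
    rw [← h1, h2, hcl]

/-- A choice of universal deformation at each level. -/
def level (habs : ρbar.IsAbsolutelyIrreducible) (h𝒟 : IsDeformationCondition 𝒪 𝒟)
    (hg : DetectsTangent ρbar 𝒟 g) (hbar : 𝒟 (GaloisRepAdic.ofResidualGaloisRep ρbar)) (n : ℕ) :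
    Level 𝒪 ρbar 𝒟 g n :=
  (exists_level 𝒪 habs h𝒟 hg hbar n).some

include h𝒟 in
lemma Level.step {n : ℕ} (L : Level 𝒪 ρbar 𝒟 g n) (L' : Level 𝒪 ρbar 𝒟 g (n + 1)) :
    L'.J ≤ L.J ∧ L.J ≤ L'.J ⊔ maximalIdeal (MvPowerSeries (Fin r) 𝒪) ^ (n + 1) ∧
      ∀ σ, L'.t σ - L.t σ ∈ L.J := by
  let S := MvPowerSeries (Fin r) 𝒪
  haveI := isLocalRing_quotient L.ne_top
  haveI := L.test.isArtinian
  have hcl : classify L.test g L.isDef = Ideal.Quotient.mkₐ 𝒪 L.J :=
    powerSeries_algHom_ext L.test.residue_surjective fun i => by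
      rw [classify, artEval_X]
      show Ideal.Quotient.mk L.J (L.t (g i)) - Ideal.Quotient.mk L.J (algebraMap 𝒪 S _) = _
      rw [← map_sub, Ideal.Quotient.mkₐ_eq_mk, Ideal.Quotient.eq]
      exact L.gen i
  have hn : maximalIdeal (S ⧸ L.J) ^ (n + 2) = ⊥ := by
    rw [← le_bot_iff]
    have hm : maximalIdeal (S ⧸ L.J) ≤ (maximalIdeal S).map (Ideal.Quotient.mk L.J) := by
      intro y hy
      obtain ⟨x, rfl⟩ := Ideal.Quotient.mk_surjective y
      exact Ideal.mem_map_of_mem _ ((mem_maximalIdeal_quot x).mp hy)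
    refine (Ideal.pow_right_mono hm _).trans ?_
    rw [← Ideal.map_pow, ← Ideal.map_quotient_self L.J]
    exact Ideal.map_mono ((Ideal.pow_le_pow_right (by omega)).trans L.pow_le)
  obtain ⟨hle, heq⟩ := L'.univ (S ⧸ L.J) L.test hn _ L.isDef
  rw [hcl, ← RingHom.ker_coe_toRingHom, Ideal.Quotient.mkₐ_ker] at hle
  refine ⟨hle, ?_, fun σ => ?_⟩
  · -- the quotient of level `n+1` by the `(n+1)`-st power is a deformation of level `n`
    set I := L'.J ⊔ maximalIdeal S ^ (n + 1) with hI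
    have hItop : I ≠ ⊤ := ne_top_of_le_ne_top (maximalIdeal.isMaximal S).ne_top
      (sup_le (le_maximalIdeal L'.ne_top) (Ideal.pow_le_self (Nat.succ_ne_zero n)))
    haveI := isLocalRing_quotient hItop
    haveI := isLocalRing_quotient L'.ne_top
    haveI := L'.test.isArtinian
    haveI : Finite (S ⧸ maximalIdeal S ^ (n + 1)) := finite_quotient 𝒪 (n + 1)
    have hQ := test_quot (surjective_residue_powerSeries 𝒪 r) I (n + 1) le_sup_right
    haveI := hQ.isArtinian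
    let q : S ⧸ L'.J →ₐ[𝒪] S ⧸ I := Ideal.Quotient.factorₐ 𝒪 le_sup_left
    have hTI := L'.isDef.map h𝒟 L'.test hQ q
    have hclI : classify hQ g hTI = Ideal.Quotient.mkₐ 𝒪 I :=
      powerSeries_algHom_ext hQ.residue_surjective fun i => by
        rw [classify, artEval_X]
        show Ideal.Quotient.mk I (L'.t (g i)) - Ideal.Quotient.mk I (algebraMap 𝒪 S _) = _
        rw [← map_sub, Ideal.Quotient.mkₐ_eq_mk, Ideal.Quotient.eq]
        exact Ideal.mem_sup_left (L'.gen i)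
    have hn' : maximalIdeal (S ⧸ I) ^ (n + 1) = ⊥ := by
      rw [← le_bot_iff]
      have hm : maximalIdeal (S ⧸ I) ≤ (maximalIdeal S).map (Ideal.Quotient.mk I) := by
        intro y hy
        obtain ⟨x, rfl⟩ := Ideal.Quotient.mk_surjective y
        exact Ideal.mem_map_of_mem _ ((mem_maximalIdeal_quot x).mp hy)
      refine (Ideal.pow_right_mono hm _).trans ?_
      rw [← Ideal.map_pow, ← Ideal.map_quotient_self I]
      exact Ideal.map_mono le_sup_right
    have := (L.univ (S ⧸ I) hQ hn' _ hTI).1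
    rwa [hclI, ← RingHom.ker_coe_toRingHom, Ideal.Quotient.mkₐ_ker] at this
  · have := heq σ
    rw [hcl, Ideal.Quotient.mkₐ_eq_mk, Ideal.Quotient.eq] at this
    exact this

end FLTA.Deformation
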