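import Mathlib
import Fermat.Prelude.Def_GaloisRep_DeformationRingData
import Fermat.Prelude.Def_GaloisRep_DeformationCondition
import Fermat.Prelude.Thm_IsLocalRing_isAdicComplete_of_module_finite
import Fermat.Agent.Deformation.Levels

/-!
The universal deformation ring of a deformation condition with finite tangent space.
-/

set_option autoImplicit false

noncomputable section

namespace FLTA.Deformation

open IsLocalRing GaloisRep Matrix

section glue

variable {S : Type} [CommRing S] (m : Ideal S) [IsPrecomplete m S] (J : ℕ → Ideal S)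

/-- A compatible sequence modulo decreasing ideals `J n ⊇ m ^ (n+1)` with
`J n ≤ J (n+1) ⊔ m ^ (n+1)` has a common lift. -/
lemma exists_glue (hpow : ∀ n, m ^ (n + 1) ≤ J n) (hdec : ∀ n, J (n + 1) ≤ J n)
    (happrox : ∀ n, J n ≤ J (n + 1) ⊔ m ^ (n + 1)) (t : ℕ → S) (ht : ∀ n, t (n + 1) - t n ∈ J n)
    (N : ℕ) (u0 : S) (hu0 : u0 - t N ∈ J N) :
    ∃ u, (∀ n, u - t n ∈ J n) ∧ u - u0 ∈ m ^ (N + 1) := by
  have next_ : ∀ n u, u - t n ∈ J n → ∃ v, v - t (n + 1) ∈ J (n + 1) ∧ v - u ∈ m ^ (n + 1) := by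
    intro n u hu
    have : u - t (n + 1) ∈ J n := by
      have := sub_mem hu (ht n)
      rwa [sub_sub_sub_cancel_right] at this
    obtain ⟨y, hy, z, hz, hyz⟩ := Submodule.mem_sup.mp (happrox n this)
    refine ⟨t (n + 1) + y, by rwa [add_sub_cancel_left], ?_⟩
    rw [show t (n + 1) + y - u = -z by linear_combination hyz]
    exact neg_mem hz
  choose f hf hf' using next_
  let s : (k : ℕ) → {v : S // v - t (N + k) ∈ J (N + k)} := fun k =>
    Nat.rec ⟨u0, hu0⟩ (fun k v => ⟨f (N + k) v.1 v.2, hf (N + k) v.1 v.2⟩) k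
  have hs : ∀ k, (s (k + 1)).1 - (s k).1 ∈ m ^ (N + k + 1) := fun k => hf' (N + k) (s k).1 (s k).2
  have hsl : ∀ k l, k ≤ l → (s l).1 - (s k).1 ∈ m ^ (N + k + 1) := by
    intro k l hkl
    induction l, hkl using Nat.le_induction with
    | base => simp
    | succ l hkl ih =>
      have := add_mem (Ideal.pow_le_pow_right (by omega : N + k + 1 ≤ N + l + 1) (hs l)) ih
      rwa [sub_add_sub_cancel] at this
  obtain ⟨u, hu⟩ := IsPrecomplete.prec (inferInstance : IsPrecomplete m S)
    (f := fun k => (s k).1) (fun {k l} hkl => by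
      rw [SModEq.sub_mem, smul_eq_mul, Ideal.mul_top, ← neg_sub]
      exact neg_mem (Ideal.pow_le_pow_right (by omega) (hsl k l hkl)))
  have hu' : ∀ k, u - (s k).1 ∈ m ^ k := fun k => by
    have := hu k
    rw [SModEq.sub_mem, smul_eq_mul, Ideal.mul_top, ← neg_mem_iff, neg_sub] at this
    exact this
  have hu'' : ∀ k, u - (s k).1 ∈ m ^ (N + k + 1) := fun k => by
    have := add_mem (hu' (N + k + 1)) (hsl k (N + k + 1) (by omega))
    rwa [sub_add_sub_cancel] at this
  refine ⟨u, ?_, hu'' 0⟩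
  have high : ∀ k, u - t (N + k) ∈ J (N + k) := fun k => by
    have := add_mem (hpow _ (hu'' k)) (s k).2
    rwa [sub_add_sub_cancel] at this
  have down : ∀ n, u - t (n + 1) ∈ J (n + 1) → u - t n ∈ J n := fun n h => by
    have := add_mem (hdec n h) (ht n)
    rwa [sub_add_sub_cancel] at this
  intro n
  have : ∀ d n, u - t (n + d) ∈ J (n + d) → u - t n ∈ J n := by
    intro d
    induction d with
    | zero => exact fun n h => h
    | succ d ih => exact fun n h => ih n (down (n + d) h)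
  exact this N n (Nat.add_comm n N ▸ high n)

end glue

variable {𝒪 : Type} [CommRing 𝒪] [IsDomain 𝒪] [IsDiscreteValuationRing 𝒪]
  [IsAdicComplete (maximalIdeal 𝒪) 𝒪] [Finite (ResidueField 𝒪)]
variable {ρbar : ResidualGaloisRep (ResidueField 𝒪)}
  {𝒟 : ∀ ⦃A : Type⦄ [CommRing A] [IsLocalRing A] [Algebra 𝒪 A], GaloisRepAdic A → Prop}

section target

variable (habs : ρbar.IsAbsolutelyIrreducible) (h𝒟 : IsDeformationCondition 𝒪 𝒟)
variable {A : Type} [CommRing A] [IsLocalRing A] [IsNoetherianRing A]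
  [IsAdicComplete (maximalIdeal A) A] [Algebra 𝒪 A] [IsLocalHom (algebraMap 𝒪 A)]

include h𝒟 in
/-- Truncations of a deformation over a complete ring are deformations. -/
lemma isDef_truncation (hsurj : Function.Surjective (residue A ∘ algebraMap 𝒪 A))
    (ρA : GaloisRepAdic A) (hD : 𝒟 ρA) (hres : ResCond ρbar ρA.trace) (n : ℕ)
    [IsLocalRing (A ⧸ maximalIdeal A ^ (n + 1))]
    (hB : IsArtinianTestAlgebra 𝒪 (A ⧸ maximalIdeal A ^ (n + 1))) :
    IsDef ρbar 𝒟 (A ⧸ maximalIdeal A ^ (n + 1))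
      fun σ => Ideal.Quotient.mk (maximalIdeal A ^ (n + 1)) (ρA.trace σ) := by
  let q : A →ₐ[𝒪] A ⧸ maximalIdeal A ^ (n + 1) := Ideal.Quotient.mkₐ 𝒪 _
  have hq : IsLocalHom (q : A →+* A ⧸ maximalIdeal A ^ (n + 1)) := ⟨fun a ha => by
    by_contra h
    exact (mem_maximalIdeal_quot (I := maximalIdeal A ^ (n + 1)) a).mpr h ha⟩
  refine ⟨fun σ => ?_, ρA.baseChangeAlong (q : A →+* _) hq,
    fun σ => trace_baseChangeAlong _ hq ρA σ, ?_⟩
  · rw [← Ideal.Quotient.mk_algebraMap, ← map_sub]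
    exact (mem_maximalIdeal_quot _).mpr (hres σ)
  · exact (h𝒟.iff_forall_surjective inferInstance hsurj ρA).mp hD hB q hq
      (Ideal.Quotient.mkₐ_surjective 𝒪 _)

end target

variable (habs : ρbar.IsAbsolutelyIrreducible) (h𝒟 : IsDeformationCondition 𝒪 𝒟)
  (hbar : 𝒟 (GaloisRepAdic.ofResidualGaloisRep ρbar))

include habs h𝒟 hbar in
theorem nonempty_deformationRingData (hfin : GaloisRep.TangentFinite 𝒪 ρbar 𝒟) :
    Nonempty (GaloisRep.DeformationRingData 𝒪 ρbar 𝒟) := by
  obtain ⟨r, g, hg⟩ := exists_detectsTangent ρbar 𝒟 habs hfin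
  let S := MvPowerSeries (Fin r) 𝒪
  haveI hScompl : IsAdicComplete (maximalIdeal S) S := isAdicComplete_powerSeries 𝒪 r
  let L := level 𝒪 habs h𝒟 hg hbar
  have hstep := fun n => Level.step 𝒪 h𝒟 (L n) (L (n + 1))
  let Jinf : Ideal S := ⨅ n, (L n).J
  have hJtop : Jinf ≠ ⊤ := fun e => (L 0).ne_top (top_unique (e ▸ iInf_le _ 0))
  -- the limit of the trace functions
  have hglue := exists_glue (maximalIdeal S) (fun n => (L n).J) (fun n => (L n).pow_le)
    (fun n => (hstep n).1) (fun n => (hstep n).2.1)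
  choose u hu using fun σ => hglue (fun n => (L n).t σ) (fun n => (hstep n).2.2 σ) 0 ((L 0).t σ)
    (by simp)
  have hJle : ∀ n x, x ∈ (L n).J → ∃ y ∈ Jinf, x - y ∈ maximalIdeal S ^ (n + 1) := by
    intro n x hx
    obtain ⟨y, hy, hy'⟩ := hglue (fun _ => 0) (fun _ => by simp) n x (by simpa using hx)
    refine ⟨y, Submodule.mem_iInf _ |>.mpr fun k => by simpa using hy k, ?_⟩
    rw [← neg_sub]
    exact neg_mem hy'
  -- the ring
  let R := S ⧸ Jinf
  haveI : IsLocalRing R := isLocalRing_quotient hJtop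
  have hsurjR : Function.Surjective (residue R ∘ algebraMap 𝒪 R) :=
    residue_surjective_quot (surjective_residue_powerSeries 𝒪 r) Jinf
  haveI hlocR : IsLocalHom (algebraMap 𝒪 R) := ⟨fun c hc => by
    refine (inferInstance : IsLocalHom (algebraMap 𝒪 S)).map_nonunit c ?_
    by_contra h
    rw [← Ideal.Quotient.mk_algebraMap] at hc
    exact (mem_maximalIdeal_quot (I := Jinf) _).mpr h hc⟩
  haveI : IsLocalHom (algebraMap S R) := ⟨fun c hc => by
    by_contra h
    exact (mem_maximalIdeal_quot (I := Jinf) c).mpr h hc⟩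
  haveI : IsAdicComplete (maximalIdeal R) R :=
    IsLocalRing.isAdicComplete_of_module_finite (𝒪 := S) (T := R)
  haveI : IsNoetherianRing R := inferInstance
  haveI := henselianLocalRing_of_complete R
  let TR : GalQ → R := fun σ => Ideal.Quotient.mk Jinf (u σ)
  -- projections to the levels
  haveI hlocL : ∀ n, IsLocalRing (S ⧸ (L n).J) := fun n => isLocalRing_quotient (L n).ne_top
  let proj : ∀ n, R →ₐ[𝒪] S ⧸ (L n).J := fun n => Ideal.Quotient.factorₐ 𝒪 (iInf_le _ n)
  have hprojT : ∀ n σ, proj n (TR σ) = Ideal.Quotient.mk (L n).J ((L n).t σ) := fun n σ =>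
    Ideal.Quotient.eq.mpr ((hu σ).1 n)
  have hresR : ResCond ρbar TR := fun σ => by
    have h0 := (L 0).isDef.1 σ
    rw [← Ideal.Quotient.mk_algebraMap, ← map_sub, mem_maximalIdeal_quot] at h0 ⊢
    have := add_mem (le_maximalIdeal (L 0).ne_top ((hu σ).1 0)) h0
    rwa [sub_add_sub_cancel] at this
  choose ρn hρn hDn using fun n => (L n).isDef.2
  obtain ⟨N, hN, hN1⟩ := exists_rep_of_jointly_injective TR
    (hasFullResidue ρbar habs hsurjR hresR) (fun n => S ⧸ (L n).J)
    (fun n => (proj n : R →+* S ⧸ (L n).J))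
    (fun a ha => by
      obtain ⟨a, rfl⟩ := Ideal.Quotient.mk_surjective a
      rw [Ideal.Quotient.eq_zero_iff_mem]
      exact (Submodule.mem_iInf _).mpr fun n => Ideal.Quotient.eq_zero_iff_mem.mp (ha n))
    (fun n => toMat (ρn n))
    (fun n σ => by rw [trace_toMat, hρn]; exact hprojT n σ)
  have hkerproj : ∀ n x, proj n x = 0 → x ∈ maximalIdeal R ^ (n + 1) := by
    intro n x hx
    obtain ⟨x, rfl⟩ := Ideal.Quotient.mk_surjective x
    obtain ⟨y, hy, hxy⟩ := hJle n x (Ideal.Quotient.eq_zero_iff_mem.mp hx)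
    have : Ideal.Quotient.mk Jinf x = Ideal.Quotient.mk Jinf (x - y) := by
      rw [map_sub, Ideal.Quotient.eq_zero_iff_mem.mpr hy, sub_zero]
    rw [this]
    have := Ideal.mem_map_of_mem (Ideal.Quotient.mk Jinf) hxy
    rw [Ideal.map_pow] at this
    exact Ideal.pow_right_mono
      (Ideal.map_le_iff_le_comap.mpr fun z hz => Ideal.mem_comap.mpr ((mem_maximalIdeal_quot z).mpr hz)) _ this
  have hcont : MatCont R N := by
    intro n
    haveI := (L n).test.isArtinian
    obtain ⟨F, hF, hF1⟩ := exists_level_eq_one_of_artinian (ρn n)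
    refine ⟨F, hF, fun σ hσ i j => Ideal.pow_le_pow_right n.le_succ (hkerproj n _ ?_)⟩
    have := congrFun (congrFun (hN1 n σ (hF1 σ hσ)) i) j
    simp only [Matrix.map_apply, RingHom.coe_coe] at this
    rw [map_sub, this]
    by_cases h : i = j
    · subst h; simp
    · simp [Matrix.one_apply_ne h]
  let ρR := ofMat N hcont
  have hρR : ∀ σ, ρR.trace σ = TR σ := fun σ => by rw [trace_ofMat]; exact hN σ
  -- every map out of `R` sends `ρR` to the expected trace
  have hgenR : ∀ i, TR (g i) - algebraMap 𝒪 R (traceLift 𝒪 ρbar (g i)) =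
      Ideal.Quotient.mk Jinf (MvPowerSeries.X i) := by
    intro i
    rw [← Ideal.Quotient.mk_algebraMap, ← map_sub, Ideal.Quotient.eq]
    refine (Submodule.mem_iInf _).mpr fun n => ?_
    have h1 := (hu (g i)).1 n
    have h2 := (L n).gen i
    have := add_mem h1 h2
    convert this using 1
    ring
  have isOfType : 𝒟 ρR := by
    refine (h𝒟.iff_forall_surjective hlocR hsurjR ρR).mpr ?_
    intro B _ _ _ hB q hq _
    haveI := hB.isArtinian
    obtain ⟨M, hM⟩ := (isArtinianRing_iff_isNilpotent_maximalIdeal B).mp hB.isArtinian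
    let ψ : S →ₐ[𝒪] B := q.comp (Ideal.Quotient.mkₐ 𝒪 Jinf)
    have hker : ∀ x ∈ (L M).J, ψ x = 0 := by
      intro x hx
      obtain ⟨y, hy, hxy⟩ := hJle M x hx
      have h1 := map_mem_pow hB.residue_surjective ψ hxy
      have h3 : maximalIdeal B ^ (M + 1) = ⊥ := by rw [pow_succ, hM, zero_mul]; rfl
      rw [h3, Ideal.mem_bot, map_sub, sub_eq_zero] at h1
      rw [h1]
      show q (Ideal.Quotient.mk Jinf y) = 0
      rw [Ideal.Quotient.eq_zero_iff_mem.mpr hy, map_zero]
    let q' : S ⧸ (L M).J →ₐ[𝒪] B := Ideal.Quotient.liftₐ _ ψ hker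
    refine ((L M).isDef.map h𝒟 (L M).test hB q').mem_of_trace habs h𝒟 hB _ fun σ => ?_
    rw [trace_baseChangeAlong, hρR]
    show ψ (u σ) = ψ ((L M).t σ)
    exact sub_eq_zero.mp (by rw [← map_sub]; exact hker _ ((hu σ).1 M))
  refine ⟨{
    R := R
    residue_surjective := hsurjR
    absIrr := habs
    ρ := ρR
    isOfType := isOfType
    residual_isEquiv := (residual_isEquiv_iff ρbar habs hsurjR ρR).mpr
      (by rw [show ρR.trace = TR from funext hρR]; exact hresR)
    universal := ?_ }⟩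
  intro A _ _ _ _ _ _ hsA ρA hDA hresA
  have hresA' := (residual_isEquiv_iff ρbar habs hsA ρA).mp hresA
  haveI := henselianLocalRing_of_complete A
  let mA := maximalIdeal A
  haveI hlocA : ∀ n, IsLocalRing (A ⧸ mA ^ (n + 1)) := fun n =>
    isLocalRing_quotient (ne_top_of_le_ne_top (maximalIdeal.isMaximal A).ne_top
      (Ideal.pow_le_self n.succ_ne_zero))
  haveI hfinA : Finite (A ⧸ mA) := by
    refine Finite.of_surjective (ResidueField.map (algebraMap 𝒪 A)) fun y => ?_
    obtain ⟨a, ha⟩ := hsA y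
    exact ⟨residue 𝒪 a, by rw [ResidueField.map_residue]; exact ha⟩
  have hBn : ∀ n, IsArtinianTestAlgebra 𝒪 (A ⧸ mA ^ (n + 1)) := fun n =>
    haveI := Ideal.finite_quotient_pow (IsNoetherian.noetherian mA) (n + 1)
    test_quot hsA _ (n + 1) le_rfl
  have hTn := fun n => isDef_truncation h𝒟 hsA ρA hDA hresA' n (hBn n)
  let cl := fun n => classify (hBn n) g (hTn n)
  have hcompat : ∀ {m n : ℕ} (hle : m ≤ n),
      (Ideal.Quotient.factorₐ 𝒪 (Ideal.pow_le_pow_right (I := mA)
        (Nat.succ_le_succ hle))).comp (cl n) = cl m := by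
    intro m n hle
    haveI := (hBn n).isArtinian
    haveI := (hBn m).isArtinian
    refine powerSeries_algHom_ext (hBn m).residue_surjective fun i => ?_
    simp only [cl, AlgHom.comp_apply, classify, artEval_X]
    rfl
  have hclX : ∀ n i, cl n (MvPowerSeries.X i) =
      Ideal.Quotient.mk (mA ^ (n + 1)) (genVal ρbar g ρA.trace i) := by
    intro n i
    haveI := (hBn n).isArtinian
    refine (artEval_X _ _ i).trans ?_
    rw [genVal, genVal, map_sub]
    rfl
  let fA : (n : ℕ) → S →ₐ[𝒪] A ⧸ mA ^ n := fun n =>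
    (Ideal.Quotient.factorₐ 𝒪 (Ideal.pow_le_pow_right n.le_succ)).comp (cl n)
  have hfA : ∀ {m n : ℕ} (hle : m ≤ n),
      (Ideal.Quotient.factorₐ 𝒪 (Ideal.pow_le_pow_right hle)).comp (fA n) = fA m := by
    intro m n hle
    apply AlgHom.ext
    intro x
    simp only [fA, AlgHom.comp_apply, ← hcompat hle]
    obtain ⟨y, hy⟩ := Ideal.Quotient.mk_surjective (cl n x)
    rw [← hy]
    rfl
  let ψ : S →ₐ[𝒪] A := IsAdicComplete.liftAlgHom mA fA hfA
  have hψX : ∀ i, ψ (MvPowerSeries.X i) = genVal ρbar g ρA.trace i := by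
    intro i
    refine sub_eq_zero.mp (IsHausdorff.haus (I := mA) inferInstance _ fun n => ?_)
    rw [SModEq.zero, smul_eq_mul, Ideal.mul_top, ← Ideal.Quotient.eq_zero_iff_mem, map_sub,
      sub_eq_zero]
    rw [show Ideal.Quotient.mk (mA ^ n) (ψ (MvPowerSeries.X i)) = fA n (MvPowerSeries.X i) from
      IsAdicComplete.mk_liftAlgHom mA fA hfA n _]
    simp only [fA, AlgHom.comp_apply, hclX]
    rfl
  have hψcl : ∀ n, (Ideal.Quotient.mkₐ 𝒪 (mA ^ (n + 1))).comp ψ = cl n := by
    intro n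
    haveI := (hBn n).isArtinian
    refine powerSeries_algHom_ext (hBn n).residue_surjective fun i => ?_
    simp only [cl, AlgHom.comp_apply, classify, artEval_X, hψX]
    rfl
  have hBnpow : ∀ n, maximalIdeal (A ⧸ mA ^ (n + 1)) ^ (n + 1) = ⊥ := by
    intro n
    rw [← le_bot_iff, ← Ideal.map_quotient_self (mA ^ (n + 1)), Ideal.map_pow]
    refine Ideal.pow_right_mono (fun y hy => ?_) _
    obtain ⟨x, rfl⟩ := Ideal.Quotient.mk_surjective y
    exact Ideal.mem_map_of_mem _ ((mem_maximalIdeal_quot x).mp hy)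
  have hψu := fun n => (L n).univ _ (hBn n) (hBnpow n) _ (hTn n)
  have hzero : ∀ x ∈ Jinf, ψ x = 0 := by
    intro x hx
    refine IsHausdorff.haus (I := mA) inferInstance _ fun n => ?_
    rw [SModEq.zero, smul_eq_mul, Ideal.mul_top]
    refine Ideal.pow_le_pow_right n.le_succ ?_
    rw [← Ideal.Quotient.eq_zero_iff_mem, ← Ideal.Quotient.mkₐ_eq_mk 𝒪, ← AlgHom.comp_apply, hψcl]
    exact (hψu n).1 ((Submodule.mem_iInf _).mp hx n)
  let φ : R →ₐ[𝒪] A := Ideal.Quotient.liftₐ Jinf ψ hzero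
  have hφloc : IsLocalHom (φ : R →+* A) := ⟨fun a ha => by
    by_contra h
    obtain ⟨x, rfl⟩ := Ideal.Quotient.mk_surjective a
    exact map_mem_maximalIdeal hsA ψ ((mem_maximalIdeal_quot x).mp h) ha⟩
  have hφT : ∀ σ, φ (TR σ) = ρA.trace σ := by
    intro σ
    refine sub_eq_zero.mp (IsHausdorff.haus (I := mA) inferInstance _ fun n => ?_)
    rw [SModEq.zero, smul_eq_mul, Ideal.mul_top]
    refine Ideal.pow_le_pow_right n.le_succ ?_
    rw [← Ideal.Quotient.eq]
    have e : cl n (u σ) = cl n ((L n).t σ) := by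
      refine sub_eq_zero.mp ?_
      rw [← map_sub]
      exact (hψu n).1 ((hu σ).1 n)
    calc Ideal.Quotient.mk (mA ^ (n + 1)) (φ (TR σ))
        = ((Ideal.Quotient.mkₐ 𝒪 (mA ^ (n + 1))).comp ψ) (u σ) := rfl
      _ = cl n (u σ) := by rw [hψcl]
      _ = _ := e.trans ((hψu n).2 σ)
  refine ⟨φ, ⟨hφloc, ?_⟩, ?_⟩
  · refine isEquiv_of_trace_eq ρbar habs hsA (fun σ => ?_) fun σ => ?_
    · rw [trace_baseChangeAlong, hρR]
      show φ (TR σ) - _ ∈ _
      rw [hφT]
      exact hresA' σ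
    · rw [trace_baseChangeAlong, hρR]
      exact hφT σ
  · rintro φ' ⟨hφ', he⟩
    have hT : ∀ σ, φ' (TR σ) = ρA.trace σ := fun σ => by
      have := trace_eq_of_isEquiv he σ
      rw [trace_baseChangeAlong, hρR] at this
      exact this
    have : φ'.comp (Ideal.Quotient.mkₐ 𝒪 Jinf) = φ.comp (Ideal.Quotient.mkₐ 𝒪 Jinf) :=
      powerSeries_algHom_ext hsA fun i => by
        show φ' (Ideal.Quotient.mk Jinf (MvPowerSeries.X i)) =
          φ (Ideal.Quotient.mk Jinf (MvPowerSeries.X i))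
        rw [← hgenR i, map_sub, map_sub, hT, hφT, AlgHom.commutes, AlgHom.commutes]
    apply AlgHom.ext
    intro a
    obtain ⟨x, rfl⟩ := Ideal.Quotient.mk_surjective a
    exact AlgHom.congr_fun this x

end FLTA.Deformation
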